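import Fermat.Agent.CFT.LocalBridge.Inertia

/-!
# PROJECT C, slice D3-local (part 4): all places over `q` are conjugate

* `isIntegral_aeval_divByMonic_X_pow` : the Horner sums of a polynomial relation are integral;
* `le_of_integral_nonunits_le` : a valuation ring of an algebraic extension of `ℚ` lying over a
  prime is determined by its centre on the ring of algebraic integers;
* `center`, `center_smul`, `under_center`;
* `exists_smul_eq_of_liesOverPrime` **(P1)** : for `L/ℚ` Galois (possibly infinite), `Gal(L/ℚ)`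
  acts transitively on the valuation subrings of `L` lying over a prime `q`
  (Mathlib's `Algebra.IsInvariant.exists_smul_of_under_eq_of_profinite` on the integral closure);
* `exists_smul_padicPlace_eq` : every valuation subring of `ℚ̄` over `q` is `σ • padicPlace q`;
* `isUnramifiedOutside_iff` : the prelude's `IsUnramifiedOutside` in terms of local inertia.
-/

set_option autoImplicit false

open Polynomial
open scoped Pointwise

namespace Fermat.Agent.CFT.LocalBridge

/-- **Horner sums are integral.** If `f(x) = 0` then the upper parts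
`(f /ₘ X ^ m)(x) = c_n x ^ (n - m) + ⋯ + c_m` are integral over the coefficient ring. -/
theorem isIntegral_aeval_divByMonic_X_pow {R S : Type*} [CommRing R] [CommRing S] [IsDomain S]
    [Algebra R S] (f : R[X]) (x : S) (hf : aeval x f = 0) (m : ℕ) :
    IsIntegral R (aeval x (f /ₘ X ^ m)) := by
  classical
  have : Nontrivial R := (algebraMap R S).domain_nontrivial
  have hmon : (X ^ m : R[X]).Monic := monic_X_pow m
  set n := f.natDegree with hn
  set g := f /ₘ X ^ m with hg
  set r := f %ₘ X ^ m with hr
  have hfgr : r + X ^ m * g = f := modByMonic_add_div f (X ^ m)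
  rcases Nat.eq_zero_or_pos m with hm0 | hmpos
  · -- `m = 0`
    have : g = f := by rw [hg, hm0, pow_zero, divByMonic_one]
    rw [this, hf]; exact isIntegral_zero
  by_cases hmn : n < m
  · have : g = 0 := by
      rw [hg, divByMonic_eq_zero_iff hmon, degree_X_pow]
      exact lt_of_le_of_lt degree_le_natDegree (by exact_mod_cast hmn)
    rw [this, map_zero]; exact isIntegral_zero
  push Not at hmn
  have hne1 : (X ^ m : R[X]) ≠ 1 := by
    intro h
    have := congrArg natDegree h
    rw [natDegree_X_pow, natDegree_one] at this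
    omega
  have hgdeg : g.natDegree = n - m := by
    rw [hg, natDegree_divByMonic f hmon, natDegree_X_pow]
  have hrdeg : r.natDegree < m := by
    have := natDegree_modByMonic_lt f hmon hne1
    rwa [natDegree_X_pow] at this
  -- the module
  set N : Submodule R S := (degreeLT R (n + 1)).map (aeval x).toLinearMap with hN
  have hNfg : N.FG := by
    apply Submodule.FG.map
    rw [degreeLT_eq_span_X_pow]
    exact Submodule.fg_span (Finset.finite_toSet _)
  have h1N : (1 : S) ∈ N := by
    refine ⟨1, ?_, by simp⟩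
    rw [SetLike.mem_coe, mem_degreeLT, degree_one]
    exact_mod_cast Nat.succ_pos n
  have hNbot : N ≠ ⊥ := by
    intro h
    rw [h, Submodule.mem_bot] at h1N
    exact one_ne_zero h1N
  refine isIntegral_of_smul_mem_submodule (M := S) N hNbot hNfg _ ?_
  rintro _ ⟨p, hp, rfl⟩
  rw [SetLike.mem_coe, mem_degreeLT] at hp
  have hpdeg : p.natDegree ≤ n := by
    by_cases hp0 : p = 0
    · simp [hp0]
    · have := (natDegree_lt_iff_degree_lt hp0).mpr hp
      omega
  set plo := p %ₘ X ^ m with hplo
  set phi := p /ₘ X ^ m with hphi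
  have hpdec : plo + X ^ m * phi = p := modByMonic_add_div p (X ^ m)
  have hplodeg : plo.natDegree < m := by
    have := natDegree_modByMonic_lt p hmon hne1
    rwa [natDegree_X_pow] at this
  have hphideg : phi.natDegree ≤ n - m := by
    rw [hphi, natDegree_divByMonic p hmon, natDegree_X_pow]
    omega
  refine ⟨g * plo - r * phi, ?_, ?_⟩
  · rw [SetLike.mem_coe, mem_degreeLT]
    have h1 : (g * plo - r * phi).natDegree ≤ n := by
      refine (natDegree_sub_le _ _).trans (max_le ?_ ?_)
      · refine natDegree_mul_le.trans ?_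
        rw [hgdeg]; omega
      · refine natDegree_mul_le.trans ?_
        omega
    refine lt_of_le_of_lt degree_le_natDegree ?_
    exact_mod_cast Nat.lt_succ_of_le h1
  · simp only [AlgHom.toLinearMap_apply, smul_eq_mul]
    have h2 : g * p = (g * plo - r * phi) + f * phi := by
      rw [← hpdec, ← hfgr]; ring
    rw [← map_mul, h2, map_add, map_mul (aeval x) f, hf, zero_mul, add_zero]

section Center

variable {L : Type*} [Field L]

theorem mul_mem_nonunits (A : ValuationSubring L) {a b : L} (ha : a ∈ A.nonunits) (hb : b ∈ A) :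
    a * b ∈ A.nonunits := by
  rw [ValuationSubring.mem_nonunits_iff] at ha ⊢
  rw [map_mul]
  exact mul_lt_one_of_lt_of_le ha ((A.valuation_le_one_iff b).mpr hb)

theorem aeval_int_mem (A : ValuationSubring L) {x : L} (hx : x ∈ A) (p : ℤ[X]) :
    aeval x p ∈ A := by
  induction p using Polynomial.induction_on with
  | C a => rw [aeval_C, eq_intCast]; exact intCast_mem A a
  | add p q hp hq => rw [map_add]; exact A.add_mem _ _ hp hq
  | monomial n a h =>
    rw [map_mul, aeval_C, map_pow, aeval_X]
    exact A.mul_mem _ _ (by simp only [eq_intCast]; exact intCast_mem A a) (A.pow_mem hx _)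

theorem isIntegral_int_mem (A : ValuationSubring L) {x : L} (hx : IsIntegral ℤ x) : x ∈ A := by
  have h1 : IsIntegral A x := hx.tower_top
  obtain ⟨y, hy⟩ := (IsIntegrallyClosed.isIntegral_iff (R := A) (K := L)).mp h1
  rw [← hy]; exact y.2

theorem intCast_mem_nonunits_iff' {q : ℕ} (hq : q.Prime) {A : ValuationSubring L}
    (hA : A.LiesOverPrime q) (n : ℤ) : (n : L) ∈ A.nonunits ↔ (q : ℤ) ∣ n := by
  constructor
  · intro hn
    by_contra hdvd
    have hcop : IsCoprime (q : ℤ) n :=
      (Nat.prime_iff_prime_int.mp hq).coprime_iff_not_dvd.mpr hdvd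
    obtain ⟨a, b, hab⟩ := hcop
    have h1 : ((a : L) * (q : L) + (b : L) * (n : L)) ∈ A.nonunits := by
      refine A.nonunits.add_mem ?_ ?_
      · rw [mul_comm]; exact mul_mem_nonunits A hA (intCast_mem A a)
      · rw [mul_comm]; exact mul_mem_nonunits A hn (intCast_mem A b)
    have h2 : ((a : L) * (q : L) + (b : L) * (n : L)) = 1 := by
      have := congrArg (fun z : ℤ => (z : L)) hab
      simpa using this
    rw [h2] at h1
    exact (A.mem_nonunits_iff.mp h1).ne (map_one _)
  · rintro ⟨m, rfl⟩
    push_cast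
    exact mul_mem_nonunits A hA (intCast_mem A m)

/-- The "upper part" of an integer polynomial, cut at the last coefficient prime to `q`, takes a
unit value at any element of a valuation ring over `q`. -/
theorem aeval_divByMonic_notMem_nonunits {q : ℕ} (hq : q.Prime) {A : ValuationSubring L}
    (hA : A.LiesOverPrime q) {x : L} (hx : x ∈ A) (f : ℤ[X]) (k : ℕ)
    (hk : ¬ (q : ℤ) ∣ f.coeff k) (hk' : ∀ i, k < i → (q : ℤ) ∣ f.coeff i) :
    aeval x (f /ₘ X ^ k) ∉ A.nonunits := by
  have hmon : (X ^ k : ℤ[X]).Monic := monic_X_pow k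
  set g := f /ₘ X ^ k with hg
  set r := f %ₘ X ^ k with hr
  have hfgr : r + X ^ k * g = f := modByMonic_add_div f (X ^ k)
  have hrdeg : r.degree < k := by
    have := degree_modByMonic_lt f hmon
    rwa [degree_X_pow] at this
  have hcoeff : ∀ j, g.coeff j = f.coeff (j + k) := by
    intro j
    have : f.coeff (j + k) = (r + X ^ k * g).coeff (j + k) := by rw [hfgr]
    have hr0 : r.coeff (j + k) = 0 :=
      coeff_eq_zero_of_degree_lt (lt_of_lt_of_le hrdeg (by exact_mod_cast Nat.le_add_left k j))
    rw [this, coeff_add, coeff_X_pow_mul, hr0, zero_add]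
  -- `g = C (c_k) + X * (C q * h)`
  have hdiv : C (q : ℤ) ∣ g.divX := by
    rw [C_dvd_iff_dvd_coeff]
    intro i
    rw [coeff_divX, hcoeff]
    exact hk' _ (by omega)
  obtain ⟨h, hh⟩ := hdiv
  have hgdec : g = C (g.coeff 0) + X * (C (q : ℤ) * h) := by
    rw [← hh, add_comm, mul_comm]
    exact (divX_mul_X_add g).symm
  intro hmem
  have h1 : aeval x g = (f.coeff k : L) + (q : L) * (x * aeval x h) := by
    have e1 : aeval x (C (g.coeff 0)) = (f.coeff k : L) := by
      rw [aeval_C, eq_intCast, hcoeff, zero_add]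
    have e2 : aeval x (C (q : ℤ)) = (q : L) := by
      rw [aeval_C, eq_intCast]; push_cast; rfl
    conv_lhs => rw [hgdec]
    rw [map_add, map_mul, map_mul, e1, e2, aeval_X]
    ring
  have h2 : (q : L) * (x * aeval x h) ∈ A.nonunits :=
    mul_mem_nonunits A hA (A.mul_mem _ _ hx (aeval_int_mem A hx h))
  have h3 : (f.coeff k : L) ∈ A.nonunits := by
    have : (f.coeff k : L) = aeval x g - (q : L) * (x * aeval x h) := by rw [h1]; ring
    rw [this]
    exact A.nonunits.sub_mem hmem h2
  exact hk ((intCast_mem_nonunits_iff' hq hA _).mp h3)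

/-- If `x⁻¹` is a nonunit of `B`, the upper part of a polynomial vanishing at `x` takes a
nonunit value at `x`. -/
theorem aeval_divByMonic_mem_nonunits {B : ValuationSubring L} {x : L} (hx0 : x ≠ 0)
    (hx : x⁻¹ ∈ B.nonunits) (f : ℤ[X]) (hf : aeval x f = 0) (k : ℕ) :
    aeval x (f /ₘ X ^ k) ∈ B.nonunits := by
  classical
  have hmon : (X ^ k : ℤ[X]).Monic := monic_X_pow k
  set g := f /ₘ X ^ k with hg
  set r := f %ₘ X ^ k with hr
  have hfgr : r + X ^ k * g = f := modByMonic_add_div f (X ^ k)
  have hrdeg : r.degree < k := by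
    have := degree_modByMonic_lt f hmon
    rwa [degree_X_pow] at this
  have h1 : aeval x r + x ^ k * aeval x g = 0 := by
    rw [← hf, ← hfgr]; simp
  have h2 : aeval x g = - (aeval x r * (x⁻¹) ^ k) := by
    have hxk : x ^ k ≠ 0 := pow_ne_zero _ hx0
    have : aeval x r = - (x ^ k * aeval x g) := eq_neg_of_add_eq_zero_left h1
    rw [this, inv_pow]
    field_simp
  rw [h2]
  refine B.nonunits.neg_mem ?_
  have hnat : r.natDegree < k ∨ r = 0 := by
    by_cases hr0 : r = 0
    · exact Or.inr hr0
    · exact Or.inl ((natDegree_lt_iff_degree_lt hr0).mpr hrdeg)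
  rcases hnat with hnat | hr0
  · rw [aeval_eq_sum_range' hnat, Finset.sum_mul]
    refine B.nonunits.sum_mem fun i hi => ?_
    rw [Finset.mem_range] at hi
    have hxB : x⁻¹ ∈ B := ValuationSubring.nonunits_subset hx
    have e : r.coeff i • x ^ i * x⁻¹ ^ k = x⁻¹ * ((r.coeff i : L) * x⁻¹ ^ (k - i - 1)) := by
      have hk : k = i + ((k - i - 1) + 1) := by omega
      conv_lhs => rw [hk]
      rw [zsmul_eq_mul, pow_add, pow_succ, inv_pow, inv_pow]
      field_simp
    rw [e]
    exact mul_mem_nonunits B hx (B.mul_mem _ _ (intCast_mem B _) (B.pow_mem hxB _))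
  · rw [hr0, map_zero, zero_mul]
    exact B.nonunits.zero_mem

/-- The centre of a valuation subring on the ring of algebraic integers. -/
def center (A : ValuationSubring L) : Ideal (integralClosure ℤ L) where
  carrier := {b | (b : L) ∈ A.nonunits}
  add_mem' := fun ha hb => A.nonunits.add_mem ha hb
  zero_mem' := A.nonunits.zero_mem
  smul_mem' := fun c b hb => by
    change ((c * b : integralClosure ℤ L) : L) ∈ A.nonunits
    rw [MulMemClass.coe_mul, mul_comm]
    exact mul_mem_nonunits A hb (isIntegral_int_mem A c.2)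

theorem mem_center_iff (A : ValuationSubring L) (b : integralClosure ℤ L) :
    b ∈ center A ↔ (b : L) ∈ A.nonunits := Iff.rfl

instance center_isPrime (A : ValuationSubring L) : (center A).IsPrime := by
  refine ⟨?_, ?_⟩
  · intro h
    have : (1 : integralClosure ℤ L) ∈ center A := h ▸ Submodule.mem_top
    rw [mem_center_iff, A.mem_nonunits_iff] at this
    simp at this
  · intro a b hab
    rw [mem_center_iff, A.mem_nonunits_iff, MulMemClass.coe_mul, map_mul] at hab
    rw [mem_center_iff, mem_center_iff, A.mem_nonunits_iff, A.mem_nonunits_iff]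
    by_contra hcon
    push Not at hcon
    have ha : A.valuation (a : L) = 1 :=
      le_antisymm ((A.valuation_le_one_iff _).mpr (isIntegral_int_mem A a.2)) hcon.1
    have hb : A.valuation (b : L) = 1 :=
      le_antisymm ((A.valuation_le_one_iff _).mpr (isIntegral_int_mem A b.2)) hcon.2
    rw [ha, hb, one_mul] at hab
    exact lt_irrefl _ hab

theorem under_center {q : ℕ} (hq : q.Prime) {A : ValuationSubring L} (hA : A.LiesOverPrime q) :
    (center A).under ℤ = Ideal.span {(q : ℤ)} := by
  ext n
  rw [Ideal.mem_span_singleton, Ideal.under_def, Ideal.mem_comap, mem_center_iff,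
    ← intCast_mem_nonunits_iff' hq hA]
  simp

variable [Algebra ℚ L] [Algebra.IsAlgebraic ℚ L]

theorem exists_isPrimitive_aeval_eq_zero (x : L) :
    ∃ f : ℤ[X], f.IsPrimitive ∧ aeval x f = 0 := by
  have hx : IsAlgebraic ℤ x :=
    (IsFractionRing.isAlgebraic_iff ℤ ℚ L).mpr (Algebra.IsAlgebraic.isAlgebraic x)
  obtain ⟨f₀, hf₀, hx₀⟩ := hx
  have : CharZero L := algebraRat.charZero L
  exact ⟨f₀.primPart, f₀.isPrimitive_primPart, aeval_primPart_eq_zero hf₀ hx₀⟩

/-- **A valuation ring of an algebraic extension of `ℚ` is determined by its centre on the ring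
of algebraic integers** (one inclusion): if every algebraic integer which is a nonunit of `B` is
a nonunit of `A`, then `A ≤ B`. -/
theorem le_of_integral_nonunits_le {q : ℕ} (hq : q.Prime) {A B : ValuationSubring L}
    (hA : A.LiesOverPrime q)
    (h : ∀ y : L, IsIntegral ℤ y → y ∈ B.nonunits → y ∈ A.nonunits) : A ≤ B := by
  classical
  intro x hxA
  by_contra hxB
  have hx0 : x ≠ 0 := fun h0 => hxB (h0 ▸ B.zero_mem)
  have hxinv : x⁻¹ ∈ B.nonunits := B.inv_mem_nonunits_iff.mpr (Or.inr hxB)
  obtain ⟨f, hprim, hf⟩ := exists_isPrimitive_aeval_eq_zero x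
  -- some coefficient is prime to `q`
  have hex : ∃ i, i ≤ f.natDegree ∧ ¬ (q : ℤ) ∣ f.coeff i := by
    by_contra hall
    push Not at hall
    have hdvd : C (q : ℤ) ∣ f := by
      rw [C_dvd_iff_dvd_coeff]
      intro i
      by_cases hi : i ≤ f.natDegree
      · exact hall i hi
      · rw [coeff_eq_zero_of_natDegree_lt (not_le.mp hi)]; exact dvd_zero _
    have hunit := hprim _ hdvd
    rw [Int.isUnit_iff] at hunit
    have hq1 := hq.one_lt
    omega
  obtain ⟨i₀, hi₀, hi₀'⟩ := hex
  set k := Nat.findGreatest (fun i => ¬ (q : ℤ) ∣ f.coeff i) f.natDegree with hk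
  have hkspec : ¬ (q : ℤ) ∣ f.coeff k := Nat.findGreatest_spec (P := fun i => ¬ (q : ℤ) ∣ f.coeff i) hi₀ hi₀'
  have hkmax : ∀ i, k < i → (q : ℤ) ∣ f.coeff i := by
    intro i hi
    by_cases hin : i ≤ f.natDegree
    · have := Nat.findGreatest_is_greatest (P := fun i => ¬ (q : ℤ) ∣ f.coeff i) hi hin
      simpa using this
    · rw [coeff_eq_zero_of_natDegree_lt (not_le.mp hin)]; exact dvd_zero _
  have hy1 := aeval_divByMonic_notMem_nonunits hq hA hxA f k hkspec hkmax
  have hy2 := aeval_divByMonic_mem_nonunits hx0 hxinv f hf k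
  exact hy1 (h _ (isIntegral_aeval_divByMonic_X_pow f x hf k) hy2)

end Center

section Transitivity

variable {L : Type*} [Field L] [Algebra ℚ L] [IsGalois ℚ L]

theorem isInvariant_integralClosure :
    Algebra.IsInvariant ℤ (integralClosure ℤ L) (L ≃ₐ[ℚ] L) := by
  refine ⟨fun b hb => ?_⟩
  have hfix : ∀ g : L ≃ₐ[ℚ] L, g (b : L) = b := fun g =>
    congrArg (fun z : integralClosure ℤ L => (z : L)) (hb g)
  obtain ⟨r, hr⟩ := (InfiniteGalois.mem_range_algebraMap_iff_fixed _).mpr hfix
  have hint : IsIntegral ℤ r := by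
    have h1 : IsIntegral ℤ (algebraMap ℚ L r) := hr ▸ b.2
    exact (isIntegral_algebraMap_iff (algebraMap ℚ L).injective).mp h1
  obtain ⟨n, hn⟩ := (IsIntegrallyClosed.isIntegral_iff (R := ℤ) (K := ℚ)).mp hint
  refine ⟨n, Subtype.ext ?_⟩
  rw [← hr, ← hn]
  simp

omit [IsGalois ℚ L] in
theorem center_smul (A : ValuationSubring L) (σ : L ≃ₐ[ℚ] L) :
    center (σ • A) = σ • center A := by
  ext b
  rw [Ideal.mem_pointwise_smul_iff_inv_smul_mem, mem_center_iff, mem_center_iff,
    smul_nonunits_iff]
  rfl

/-- **(P1) Transitivity**: the Galois group permutes transitively the valuation subrings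
of a Galois extension of `ℚ` lying over a given prime. -/
theorem exists_smul_eq_of_liesOverPrime {q : ℕ} (hq : q.Prime)
    {A B : ValuationSubring L} (hA : A.LiesOverPrime q)
    (hB : B.LiesOverPrime q) : ∃ σ : L ≃ₐ[ℚ] L, σ • A = B := by
  let _ : TopologicalSpace (integralClosure ℤ L) := ⊥
  have : DiscreteTopology (integralClosure ℤ L) := ⟨rfl⟩
  have : ContinuousSMul (L ≃ₐ[ℚ] L) (integralClosure ℤ L) := by
    rw [continuousSMul_iff_stabilizer_isOpen]
    intro b
    have h := stabilizer_isOpen_of_isIntegral (K := ℚ) (b : L)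
    convert h using 1
    ext g
    simp only [SetLike.mem_coe, MulAction.mem_stabilizer_iff]
    exact Subtype.ext_iff
  have : Algebra.IsInvariant ℤ (integralClosure ℤ L) (L ≃ₐ[ℚ] L) := isInvariant_integralClosure
  have hun : (center A).under ℤ = (center B).under ℤ :=
    (under_center hq hA).trans (under_center hq hB).symm
  obtain ⟨σ, hσ⟩ := Algebra.IsInvariant.exists_smul_of_under_eq_of_profinite
    (A := ℤ) (G := L ≃ₐ[ℚ] L) (center A) (center B) hun
  refine ⟨σ, ?_⟩
  rw [← center_smul] at hσ
  have hσA : (σ • A).LiesOverPrime q := by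
    rw [ValuationSubring.LiesOverPrime, smul_nonunits_iff, map_natCast]; exact hA
  have key : ∀ y : L, IsIntegral ℤ y → (y ∈ B.nonunits ↔ y ∈ (σ • A).nonunits) := by
    intro y hy
    have := congrArg (fun I : Ideal (integralClosure ℤ L) => (⟨y, hy⟩ : integralClosure ℤ L) ∈ I) hσ
    simp only [mem_center_iff, eq_iff_iff] at this
    exact this
  apply le_antisymm
  · exact le_of_integral_nonunits_le hq hσA fun y hy h => (key y hy).mp h
  · exact le_of_integral_nonunits_le hq hB fun y hy h => (key y hy).mpr h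

end Transitivity

section Padic

instance isAlgebraic_algebraicClosure_rat : Algebra.IsAlgebraic ℚ (AlgebraicClosure ℚ) :=
  AlgebraicClosure.isAlgebraic ℚ

instance isAlgClosure_algebraicClosure_rat : IsAlgClosure ℚ (AlgebraicClosure ℚ) :=
  ⟨inferInstance, inferInstance⟩

instance isGalois_algebraicClosure_rat : IsGalois ℚ (AlgebraicClosure ℚ) where
  to_isSeparable := inferInstance
  to_normal := IsAlgClosure.normal ℚ (AlgebraicClosure ℚ)

variable (q : ℕ) [Fact q.Prime]

/-- **(P1)** Every valuation subring of `ℚ̄` lying over `q` is a Galois conjugate of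
`padicPlace q`. -/
theorem exists_smul_padicPlace_eq {A : ValuationSubring (AlgebraicClosure ℚ)}
    (hA : A.LiesOverPrime q) : ∃ σ : GlobGal, σ • padicPlace q = A :=
  exists_smul_eq_of_liesOverPrime (Fact.out : q.Prime) (liesOverPrime_padicPlace q) hA

/-- Inertia at an arbitrary place over `q` fixes `F` iff the local inertia group fixes the local
level of the corresponding conjugate of `F`. -/
theorem inertiaSubgroupIn_le_iff_of_liesOverPrime {A : ValuationSubring (AlgebraicClosure ℚ)}
    (hA : A.LiesOverPrime q) (F : IntermediateField ℚ (AlgebraicClosure ℚ)) :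
    A.inertiaSubgroupIn ℚ ≤ F.fixingSubgroup ↔
      ∃ σ : GlobGal, σ • padicPlace q = A ∧
        localInertia q ≤ (localLevel q (F.map (σ⁻¹ : GlobGal).toAlgHom)).fixingSubgroup := by
  constructor
  · intro h
    obtain ⟨σ, rfl⟩ := exists_smul_padicPlace_eq q hA
    exact ⟨σ, rfl, (inertiaSubgroupIn_smul_padicPlace_le_iff q F σ).mp h⟩
  · rintro ⟨σ, rfl, h⟩
    exact (inertiaSubgroupIn_smul_padicPlace_le_iff q F σ).mpr h

end Padic

/-- **The prelude's `IsUnramifiedOutside` in local terms**: `F` is unramified outside `S` iff it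
is a number field and, for every prime `p ∉ S` and every conjugate `σ F`, the local inertia group
at `p` acts trivially on the local level of `σ F`. -/
theorem isUnramifiedOutside_iff (F : IntermediateField ℚ (AlgebraicClosure ℚ))
    (S : Finset Nat.Primes) :
    F.IsUnramifiedOutside S ↔ FiniteDimensional ℚ F ∧ ∀ p : Nat.Primes, p ∉ S →
      ∀ σ : GlobGal,
        haveI : Fact (p : ℕ).Prime := ⟨p.2⟩
        localInertia (p : ℕ) ≤ (localLevel (p : ℕ) (F.map σ.toAlgHom)).fixingSubgroup := by
  constructor
  · intro hF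
    exact ⟨hF.1, fun p hp σ => localInertia_le_of_isUnramifiedOutside hF p hp σ⟩
  · rintro ⟨hfin, h⟩
    refine ⟨hfin, fun p hp A hA => ?_⟩
    have : Fact (p : ℕ).Prime := ⟨p.2⟩
    obtain ⟨σ, rfl⟩ := exists_smul_padicPlace_eq (p : ℕ) hA
    rw [inertiaSubgroupIn_smul_padicPlace_le_iff]
    exact h p hp σ⁻¹

end Fermat.Agent.CFT.LocalBridge
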