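import Fermat.Agent.CFT.Bridge.Levels
import Fermat.Agent.CFT.LocalBridge.Conjugacy

/-!
# PROJECT C, slice D3-local (part 5): the level families of the local Galois group

* `comap_fixingSubgroup` : `F.fixingSubgroup.comap loc = (localLevel q F).fixingSubgroup`;
* `map_localLevel`, `normal_localLevel`, `isGalois_localLevel` : the local level of a Galois
  number field is Galois over `ℚ_[q]`;
* `levelsLoc q : LC.Levels (LocGal q)` : fixing subgroups of the finite Galois extensions of
  `ℚ_[q]` inside `PadicAlgCl q` (with `IsFin`);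
* `levelsLoc_refines_levelsOf`, `levelsOf_refines_levelsLoc`, `cochains_levelsLoc_eq` : this
  intrinsic family and the family `Bridge.levelsOf (localGaloisToGlobal q)` used by the prelude's
  `IsLevelConstant` predicates are cofinal in each other, hence have the same level-constant
  cochains.
-/

set_option autoImplicit false

open IntermediateField
open Fermat.Agent.CFT.LC Fermat.Agent.CFT.Bridge

namespace Fermat.Agent.CFT.LocalBridge

variable (q : ℕ) [Fact q.Prime]

/-- **(K3a, subgroup form)** -/
theorem comap_fixingSubgroup (F : IntermediateField ℚ (AlgebraicClosure ℚ)) :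
    F.fixingSubgroup.comap (localGaloisToGlobal q) = (localLevel q F).fixingSubgroup := by
  ext τ
  rw [Subgroup.mem_comap, mem_fixingSubgroup_localLevel_iff]

/-- The local Galois group permutes local levels compatibly with `localGaloisToGlobal`. -/
theorem map_localLevel (F : IntermediateField ℚ (AlgebraicClosure ℚ)) (τ : LocGal q) :
    (localLevel q F).map (τ : PadicAlgCl q →ₐ[ℚ_[q]] PadicAlgCl q) =
      localLevel q (F.map ((localGaloisToGlobal q τ : GlobGal) :
        AlgebraicClosure ℚ →ₐ[ℚ] AlgebraicClosure ℚ)) := by
  rw [localLevel, localLevel, IntermediateField.adjoin_map]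
  congr 1
  ext z
  constructor
  · rintro ⟨_, ⟨y, hy, rfl⟩, rfl⟩
    refine ⟨localGaloisToGlobal q τ y, ⟨y, hy, rfl⟩, ?_⟩
    rw [padicEmbedding_localGaloisToGlobal]; rfl
  · rintro ⟨_, ⟨y, hy, rfl⟩, rfl⟩
    refine ⟨padicEmbedding q y, ⟨y, hy, rfl⟩, ?_⟩
    change τ (padicEmbedding q y) = _
    rw [← padicEmbedding_localGaloisToGlobal]; rfl

/-- The local level of a normal number field is normal over `ℚ_[q]`. -/
instance normal_localLevel (F : IntermediateField ℚ (AlgebraicClosure ℚ)) [Normal ℚ F] :
    Normal ℚ_[q] (localLevel q F) := by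
  rw [IntermediateField.normal_iff_forall_map_le']
  intro τ
  rw [map_localLevel]
  apply localLevel_mono
  have hF : Normal ℚ F := inferInstance
  exact IntermediateField.normal_iff_forall_map_le'.mp hF _

instance isGalois_localLevel (F : IntermediateField ℚ (AlgebraicClosure ℚ)) [Normal ℚ F] :
    IsGalois ℚ_[q] (localLevel q F) where
  to_isSeparable := inferInstance
  to_normal := inferInstance

theorem finiteIndex_fixingSubgroup_loc (E : IntermediateField ℚ_[q] (PadicAlgCl q))
    [FiniteDimensional ℚ_[q] E] : E.fixingSubgroup.FiniteIndex := by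
  have : Finite (LocGal q ⧸ E.fixingSubgroup) :=
    Subgroup.quotient_finite_of_isOpen _ E.fixingSubgroup_isOpen
  exact Subgroup.finiteIndex_of_finite_quotient

/-- The intrinsic level family of the local Galois group: fixing subgroups of finite Galois
extensions of `ℚ_[q]` inside `PadicAlgCl q`. -/
noncomputable def levelsLoc : Levels (LocGal q) where
  sets := {U | ∃ E : IntermediateField ℚ_[q] (PadicAlgCl q), FiniteDimensional ℚ_[q] E ∧
    Normal ℚ_[q] E ∧ E.fixingSubgroup = U}
  nonempty := ⟨⊤, ⊥, inferInstance, inferInstance, IntermediateField.fixingSubgroup_bot⟩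
  directed := by
    rintro U ⟨E, hE, hEn, rfl⟩ V ⟨E', hE', hEn', rfl⟩
    refine ⟨E.fixingSubgroup ⊓ E'.fixingSubgroup,
      ⟨E ⊔ E', IntermediateField.finiteDimensional_sup E E', inferInstance, ?_⟩, le_rfl⟩
    exact IntermediateField.fixingSubgroup_sup
  normal := by
    rintro U ⟨E, hE, hEn, rfl⟩
    have : IsGalois ℚ_[q] E := ⟨⟩
    exact IsGalois.fixingSubgroup_normal_of_isGalois E

theorem mem_levelsLoc_iff {U : Subgroup (LocGal q)} :
    U ∈ (levelsLoc q).sets ↔ ∃ E : IntermediateField ℚ_[q] (PadicAlgCl q),
      FiniteDimensional ℚ_[q] E ∧ Normal ℚ_[q] E ∧ E.fixingSubgroup = U := Iff.rfl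

instance isFin_levelsLoc : (levelsLoc q).IsFin where
  finiteIndex := by
    rintro U ⟨E, hE, -, rfl⟩
    exact finiteIndex_fixingSubgroup_loc q E

/-- A normal fixing subgroup of a number field comes from a normal number field. -/
theorem normal_of_normal_fixingSubgroup (F : IntermediateField ℚ (AlgebraicClosure ℚ))
    [FiniteDimensional ℚ F] (h : F.fixingSubgroup.Normal) : Normal ℚ F := by
  have h1 : IsGalois ℚ (IntermediateField.fixedField F.fixingSubgroup) :=
    IsGalois.of_fixedField_normal_subgroup F.fixingSubgroup
  rw [InfiniteGalois.fixedField_fixingSubgroup] at h1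
  exact h1.to_normal

/-- Every level of the prelude's pulled-back family is an intrinsic local level. -/
theorem levelsOf_sets_subset :
    (levelsOf (localGaloisToGlobal q)).sets ⊆ (levelsLoc q).sets := by
  rintro _ ⟨U, ⟨hU, F, hF, rfl⟩, rfl⟩
  have : Normal ℚ F := normal_of_normal_fixingSubgroup F hU
  exact ⟨localLevel q F, inferInstance, inferInstance, (comap_fixingSubgroup q F).symm⟩

theorem levelsLoc_refines_levelsOf :
    (levelsLoc q).Refines (levelsOf (localGaloisToGlobal q)) :=
  fun V hV => ⟨V, levelsOf_sets_subset q hV, le_rfl⟩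

theorem levelsOf_refines_levelsLoc :
    (levelsOf (localGaloisToGlobal q)).Refines (levelsLoc q) := by
  rintro V ⟨E, hE, -, rfl⟩
  obtain ⟨F, hF, hle⟩ := exists_le_localLevel q E
  refine ⟨(nc F).fixingSubgroup.comap (localGaloisToGlobal q),
    ⟨_, ⟨normal_fixingSubgroup_nc F, nc F, finiteDimensional_nc F, rfl⟩, rfl⟩, ?_⟩
  rw [comap_fixingSubgroup]
  exact IntermediateField.fixingSubgroup_antitone (hle.trans (localLevel_mono q (le_nc F)))

/-- The prelude's level-constant cochains on the local Galois group are the cochains which are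
level constant for the intrinsic local family. -/
theorem cochains_levelsLoc_eq {k : Type} [CommRing k] (A : Rep.{0} k (LocGal q)) (n : ℕ) :
    cochains (levelsLoc q) A n = cochains (levelsOf (localGaloisToGlobal q)) A n :=
  cochains_eq_of_refines (levelsLoc_refines_levelsOf q) (levelsOf_refines_levelsLoc q) n

end Fermat.Agent.CFT.LocalBridge
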