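import Fermat.Agent.CFT.LocalBridge.Decomposition
import Fermat.Prelude.Def_GroupCohomology_ContinuousUnramified

/-!
# PROJECT C, slice D3-local (part 3): inertia

* `mem_inertiaSubgroupIn_iff` : elementary description of the prelude's `inertiaSubgroupIn`;
* `mem_inertiaSubgroupIn_smul_iff` **(P4)** : inertia of a conjugate place;
* `denseRange_padicEmbedding` **(P0)** : `ℚ̄` is dense in `PadicAlgCl q`;
* `localInertia q` : the local inertia subgroup of `Gal(PadicAlgCl q/ℚ_[q])`, by the norm condition;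
* `inertiaSubgroupIn_padicPlace` **(P2)** : the inertia group of `padicPlace q` is the image of
  the local inertia group;
* `inertiaSubgroupIn_padicPlace_le_iff` **(P3)**, `inertiaSubgroupIn_smul_padicPlace_le_iff`;
* `localInertia_le_of_isUnramifiedOutside` : how to consume the prelude's `IsUnramifiedOutside`.
-/

set_option autoImplicit false

open scoped Pointwise

namespace Fermat.Agent.CFT.LocalBridge

section General

variable {K L : Type*} [Field K] [Field L] [Algebra K L]

/-- Membership in the prelude's inertia group, in elementary terms. -/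
theorem mem_inertiaSubgroupIn_iff (A : ValuationSubring L) (σ : L ≃ₐ[K] L) :
    σ ∈ A.inertiaSubgroupIn K ↔ σ • A = A ∧ ∀ x ∈ A, σ x - x ∈ A.nonunits := by
  constructor
  · rintro ⟨g, hg, rfl⟩
    refine ⟨g.2, fun x hx => ?_⟩
    have h1 : g • (IsLocalRing.residue A ⟨x, hx⟩) = IsLocalRing.residue A ⟨x, hx⟩ :=
      RingEquiv.congr_fun (MonoidHom.mem_ker.mp hg) (IsLocalRing.residue A ⟨x, hx⟩)
    rw [← IsLocalRing.ResidueField.residue_smul, ← sub_eq_zero, ← map_sub,
      IsLocalRing.residue_eq_zero_iff] at h1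
    exact ValuationSubring.coe_mem_nonunits_iff.mpr h1
  · rintro ⟨hσ, h⟩
    have hσ' : σ ∈ A.decompositionSubgroup K := hσ
    refine ⟨⟨σ, hσ'⟩, ?_, rfl⟩
    change (⟨σ, hσ'⟩ : A.decompositionSubgroup K) ∈ MonoidHom.ker _
    rw [MonoidHom.mem_ker]
    ext r
    obtain ⟨a, rfl⟩ := IsLocalRing.residue_surjective r
    change (⟨σ, hσ'⟩ : A.decompositionSubgroup K) • IsLocalRing.residue A a = IsLocalRing.residue A a
    rw [← IsLocalRing.ResidueField.residue_smul, ← sub_eq_zero, ← map_sub,
      IsLocalRing.residue_eq_zero_iff, ← ValuationSubring.coe_mem_nonunits_iff]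
    exact h a a.2

theorem smul_nonunits_iff (A : ValuationSubring L) (σ : L ≃ₐ[K] L) (x : L) :
    x ∈ (σ • A).nonunits ↔ σ⁻¹ x ∈ A.nonunits := by
  rw [ValuationSubring.mem_nonunits_iff_or, ValuationSubring.mem_nonunits_iff_or,
    ValuationSubring.mem_pointwise_smul_iff_inv_smul_mem, AlgEquiv.smul_def, map_inv₀]
  simp

/-- **(P4)** The inertia group of a conjugate place is the conjugate inertia group. -/
theorem mem_inertiaSubgroupIn_smul_iff (A : ValuationSubring L) (σ τ : L ≃ₐ[K] L) :
    τ ∈ (σ • A).inertiaSubgroupIn K ↔ σ⁻¹ * τ * σ ∈ A.inertiaSubgroupIn K := by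
  rw [mem_inertiaSubgroupIn_iff, mem_inertiaSubgroupIn_iff]
  refine and_congr ?_ ?_
  · rw [mul_smul, mul_smul, inv_smul_eq_iff]
  · constructor
    · intro h x hx
      have h1 := h (σ x) (ValuationSubring.smul_mem_pointwise_smul σ x A hx)
      rw [smul_nonunits_iff] at h1
      simpa [AlgEquiv.mul_apply] using h1
    · intro h x hx
      rw [ValuationSubring.mem_pointwise_smul_iff_inv_smul_mem, AlgEquiv.smul_def] at hx
      have h1 := h _ hx
      rw [smul_nonunits_iff]
      simpa [AlgEquiv.mul_apply] using h1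

end General

variable (q : ℕ) [Fact q.Prime]

/-- **(P0)** `ℚ̄` is dense in `PadicAlgCl q`. -/
theorem denseRange_padicEmbedding : DenseRange (padicEmbedding q) := by
  intro x
  -- the closure of the range, as a subring
  set S : Subring (PadicAlgCl q) := (padicEmbedding q).toRingHom.range.topologicalClosure with hS
  have hrange : ∀ y, padicEmbedding q y ∈ S := fun y =>
    Subring.le_topologicalClosure _ ⟨y, rfl⟩
  have hbase : ∀ a : ℚ_[q], algebraMap ℚ_[q] (PadicAlgCl q) a ∈ S := by
    intro a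
    have hc : Continuous (algebraMap ℚ_[q] (PadicAlgCl q)) :=
      continuous_algebraMap ℚ_[q] (PadicAlgCl q)
    have h1 : algebraMap ℚ_[q] (PadicAlgCl q) a ∈
        closure (algebraMap ℚ_[q] (PadicAlgCl q) '' Set.range (algebraMap ℚ ℚ_[q])) :=
      map_mem_closure hc (denseRange_algebraMap_rat_padic q a) (fun b hb => ⟨b, hb, rfl⟩)
    refine closure_mono ?_ h1
    rintro _ ⟨_, ⟨r, rfl⟩, rfl⟩
    refine ⟨algebraMap ℚ (AlgebraicClosure ℚ) r, ?_⟩
    have := congrArg (fun f : ℚ →+* PadicAlgCl q => f r) (padicEmbedding_comp_algebraMap q)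
    simp only [RingHom.comp_apply] at this
    rw [algebraMap_rat_padicAlgCl_eq] at this
    exact this
  let S' : Subalgebra ℚ_[q] (PadicAlgCl q) := { S.toSubsemiring with algebraMap_mem' := hbase }
  obtain ⟨y, hy⟩ := exists_mem_adjoin_padicEmbedding q x
  have halg : IsAlgebraic ℚ_[q] (padicEmbedding q y) := Algebra.IsAlgebraic.isAlgebraic _
  have hx : x ∈ (IntermediateField.adjoin ℚ_[q] {padicEmbedding q y}).toSubalgebra := hy
  rw [IntermediateField.adjoin_simple_toSubalgebra_of_isAlgebraic halg] at hx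
  have hle : Algebra.adjoin ℚ_[q] {padicEmbedding q y} ≤ S' :=
    Algebra.adjoin_le (Set.singleton_subset_iff.mpr (hrange y))
  exact hle hx

theorem norm_sub_le_max' (a b : PadicAlgCl q) : ‖a - b‖ ≤ max ‖a‖ ‖b‖ := by
  have := IsUltrametricDist.norm_add_le_max a (-b)
  rwa [norm_neg, ← sub_eq_add_neg] at this

theorem mem_padicPlace_iff_norm {x : AlgebraicClosure ℚ} :
    x ∈ padicPlace q ↔ ‖padicEmbedding q x‖ ≤ 1 := by
  rw [mem_padicPlace_iff, ← NNReal.coe_le_coe]
  rfl

theorem mem_nonunits_padicPlace_iff {x : AlgebraicClosure ℚ} :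
    x ∈ (padicPlace q).nonunits ↔ ‖padicEmbedding q x‖ < 1 := by
  rw [ValuationSubring.mem_nonunits_iff_or, mem_padicPlace_iff_norm, map_inv₀, norm_inv]
  by_cases hx : x = 0
  · simp [hx]
  · have hpos : 0 < ‖padicEmbedding q x‖ :=
      norm_pos_iff.mpr fun h => hx (padicEmbedding_injective q (h.trans (map_zero _).symm))
    simp only [hx, false_or, not_le]
    rw [one_lt_inv₀ hpos]

/-- The local inertia group: automorphisms of `PadicAlgCl q` over `ℚ_[q]` acting trivially on the
residue field, i.e. moving every element of the unit ball by an element of the open unit ball. -/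
def localInertia : Subgroup (LocGal q) where
  carrier := {τ | ∀ z : PadicAlgCl q, ‖z‖ ≤ 1 → ‖τ z - z‖ < 1}
  one_mem' := fun z _ => by simp
  mul_mem' := by
    intro τ τ' hτ hτ' z hz
    have h1 : ‖τ' z‖ ≤ 1 := by
      have := congrArg (fun t : NNReal => (t : ℝ)) (nnnorm_padicAlgCl_algEquiv q τ' z)
      simp only [coe_nnnorm] at this
      rw [this]; exact hz
    have h2 : (τ * τ') z - z = (τ (τ' z) - τ' z) + (τ' z - z) := by
      rw [AlgEquiv.mul_apply]; ring
    rw [h2]
    exact lt_of_le_of_lt (IsUltrametricDist.norm_add_le_max _ _) (max_lt (hτ _ h1) (hτ' _ hz))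
  inv_mem' := by
    intro τ hτ z hz
    have hn : ∀ w : PadicAlgCl q, ‖τ w‖ = ‖w‖ := fun w => by
      have := congrArg (fun t : NNReal => (t : ℝ)) (nnnorm_padicAlgCl_algEquiv q τ w)
      simpa only [coe_nnnorm] using this
    have h1 : ‖τ⁻¹ z‖ ≤ 1 := by
      rw [← hn (τ⁻¹ z)]
      simpa using hz
    have h2 := hτ _ h1
    have h3 : τ (τ⁻¹ z) = z := by
      change τ (τ.symm z) = z
      exact τ.apply_symm_apply z
    rw [h3, ← norm_neg, neg_sub] at h2
    exact h2

theorem mem_localInertia_iff {τ : LocGal q} :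
    τ ∈ localInertia q ↔ ∀ z : PadicAlgCl q, ‖z‖ ≤ 1 → ‖τ z - z‖ < 1 := Iff.rfl

theorem norm_locGal_apply (τ : LocGal q) (w : PadicAlgCl q) : ‖τ w‖ = ‖w‖ := by
  have := congrArg (fun t : NNReal => (t : ℝ)) (nnnorm_padicAlgCl_algEquiv q τ w)
  simpa only [coe_nnnorm] using this

/-- The local inertia condition can be tested on the dense subfield `ℚ̄`. -/
theorem mem_localInertia_iff_padicEmbedding {τ : LocGal q} :
    τ ∈ localInertia q ↔
      ∀ y : AlgebraicClosure ℚ, ‖padicEmbedding q y‖ ≤ 1 →
        ‖τ (padicEmbedding q y) - padicEmbedding q y‖ < 1 := by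
  refine ⟨fun h y hy => h _ hy, fun h z hz => ?_⟩
  obtain ⟨_, ⟨y, rfl⟩, hy⟩ :=
    Metric.mem_closure_iff.mp (denseRange_padicEmbedding q z) 1 one_pos
  rw [dist_eq_norm] at hy
  have hy1 : ‖padicEmbedding q y‖ ≤ 1 := by
    have : padicEmbedding q y = z - (z - padicEmbedding q y) := by ring
    rw [this]
    exact (norm_sub_le_max' q _ _).trans (max_le hz hy.le)
  have h2 : τ z - z = τ (z - padicEmbedding q y) +
      ((τ (padicEmbedding q y) - padicEmbedding q y) - (z - padicEmbedding q y)) := by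
    rw [map_sub]; ring
  rw [h2]
  refine lt_of_le_of_lt (IsUltrametricDist.norm_add_le_max _ _) (max_lt ?_ ?_)
  · rw [norm_locGal_apply]; exact hy
  · exact lt_of_le_of_lt (norm_sub_le_max' q _ _) (max_lt (h y hy1) hy)

/-- **(P2)** The inertia group of `padicPlace q` is the image of the local inertia group. -/
theorem inertiaSubgroupIn_padicPlace :
    (padicPlace q).inertiaSubgroupIn ℚ = (localInertia q).map (localGaloisToGlobal q) := by
  ext σ
  rw [mem_inertiaSubgroupIn_iff, Subgroup.mem_map]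
  constructor
  · rintro ⟨hσ, h⟩
    obtain ⟨τ, rfl⟩ := exists_localGaloisToGlobal_eq q hσ
    refine ⟨τ, ?_, rfl⟩
    rw [mem_localInertia_iff_padicEmbedding]
    intro y hy
    have := h y ((mem_padicPlace_iff_norm q).mpr hy)
    rw [mem_nonunits_padicPlace_iff, map_sub, padicEmbedding_localGaloisToGlobal] at this
    exact this
  · rintro ⟨τ, hτ, rfl⟩
    refine ⟨localGaloisToGlobal_mem_decompositionSubgroup q τ, fun y hy => ?_⟩
    rw [mem_nonunits_padicPlace_iff, map_sub, padicEmbedding_localGaloisToGlobal]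
    exact hτ _ ((mem_padicPlace_iff_norm q).mp hy)

/-- **(P3)** Inertia at `padicPlace q` fixes `F` iff the local inertia group fixes the local
level of `F`. -/
theorem inertiaSubgroupIn_padicPlace_le_iff (F : IntermediateField ℚ (AlgebraicClosure ℚ)) :
    (padicPlace q).inertiaSubgroupIn ℚ ≤ F.fixingSubgroup ↔
      localInertia q ≤ (localLevel q F).fixingSubgroup := by
  rw [inertiaSubgroupIn_padicPlace, Subgroup.map_le_iff_le_comap]
  constructor
  · intro h τ hτ
    exact (mem_fixingSubgroup_localLevel_iff q F τ).mpr (h hτ)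
  · intro h τ hτ
    exact (mem_fixingSubgroup_localLevel_iff q F τ).mp (h hτ)

theorem liesOverPrime_padicPlace : (padicPlace q).LiesOverPrime q := by
  rw [ValuationSubring.LiesOverPrime, mem_nonunits_padicPlace_iff, map_natCast]
  have h1 : ((q : ℕ) : PadicAlgCl q) = algebraMap ℚ_[q] (PadicAlgCl q) (q : ℚ_[q]) := by
    rw [map_natCast]
  rw [h1, norm_algebraMap', Padic.norm_p]
  have hq : (1 : ℝ) < q := by exact_mod_cast (Fact.out : q.Prime).one_lt
  exact inv_lt_one_of_one_lt₀ hq

theorem liesOverPrime_smul_padicPlace (σ : GlobGal) : (σ • padicPlace q).LiesOverPrime q := by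
  rw [ValuationSubring.LiesOverPrime, smul_nonunits_iff, map_natCast]
  exact liesOverPrime_padicPlace q

/-- Conjugating an element of the fixing subgroup. -/
theorem conj_mem_fixingSubgroup_iff (F : IntermediateField ℚ (AlgebraicClosure ℚ)) (σ ρ : GlobGal) :
    σ * ρ * σ⁻¹ ∈ F.fixingSubgroup ↔ ρ ∈ (F.map (σ⁻¹ : GlobGal).toAlgHom).fixingSubgroup := by
  rw [IntermediateField.mem_fixingSubgroup_iff, IntermediateField.mem_fixingSubgroup_iff]
  constructor
  · rintro h _ ⟨x, hx, rfl⟩
    have h1 := h x hx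
    simp only [AlgEquiv.mul_apply] at h1
    have h2 := congrArg (σ⁻¹ : GlobGal) h1
    simpa using h2
  · intro h x hx
    have h1 := h ((σ⁻¹ : GlobGal) x) ⟨x, hx, rfl⟩
    simp only [AlgEquiv.mul_apply]
    rw [h1]
    simp

/-- **(P3')** Inertia at the conjugate place `σ • padicPlace q` fixes `F` iff the local inertia
group fixes the local level of `σ⁻¹ F`. -/
theorem inertiaSubgroupIn_smul_padicPlace_le_iff (F : IntermediateField ℚ (AlgebraicClosure ℚ))
    (σ : GlobGal) :
    (σ • padicPlace q).inertiaSubgroupIn ℚ ≤ F.fixingSubgroup ↔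
      localInertia q ≤ (localLevel q (F.map (σ⁻¹ : GlobGal).toAlgHom)).fixingSubgroup := by
  rw [← inertiaSubgroupIn_padicPlace_le_iff]
  constructor
  · intro h ρ hρ
    rw [← conj_mem_fixingSubgroup_iff]
    apply h
    rw [mem_inertiaSubgroupIn_smul_iff]
    simpa [mul_assoc] using hρ
  · intro h τ hτ
    rw [mem_inertiaSubgroupIn_smul_iff] at hτ
    have := (conj_mem_fixingSubgroup_iff F σ _).mpr (h hτ)
    simpa [mul_assoc] using this

/-- Consuming the prelude's notion: if `F` is unramified outside `S` and `q ∉ S`, then the local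
inertia group at `q` acts trivially on the local level of every conjugate of `F`. -/
theorem localInertia_le_of_isUnramifiedOutside {S : Finset Nat.Primes}
    {F : IntermediateField ℚ (AlgebraicClosure ℚ)} (hF : F.IsUnramifiedOutside S)
    (p : Nat.Primes) (hp : p ∉ S) (σ : GlobGal) :
    haveI : Fact (p : ℕ).Prime := ⟨p.2⟩
    localInertia (p : ℕ) ≤ (localLevel (p : ℕ) (F.map σ.toAlgHom)).fixingSubgroup := by
  have : Fact (p : ℕ).Prime := ⟨p.2⟩
  have h := hF.2 p hp (σ⁻¹ • padicPlace (p : ℕ)) (liesOverPrime_smul_padicPlace (p : ℕ) σ⁻¹)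
  rw [inertiaSubgroupIn_smul_padicPlace_le_iff, inv_inv] at h
  exact h

end Fermat.Agent.CFT.LocalBridge
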