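import Fermat.Agent.CFT.Idele.Local
import Fermat.Agent.CFT.LocalBridge.Levels

/-!
# PROJECT C, slice D3-local (part 6): from the tensor model `L ⊗ ℚ_q` to `PadicAlgCl q`

For a subfield `L` of `ℚ̄` and `q : Nat.Primes` (helper11's conventions, `Loc L q = L ⊗[ℚ] ℚ_[q]`):

* **(E1)** `locEval q L : Loc L q →ₐ[ℚ] PadicAlgCl q`, `a ⊗ c ↦ padicEmbedding a * c`;
* **(E2)** `range_locEval` : its image is `localLevel q L`;
* **(E3)** `locRestrict q L : LocGal q →* (L ≃ₐ[ℚ] L)` for normal `L`, `locEval_aut` (equivariance),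
  `ker_locRestrict`;
* `polyToLoc q L θ : ℚ_[q][X] →+* Loc L q` (`X ↦ θ ⊗ 1`), surjective for a primitive element `θ`;
* **(E5)** `eq_zero_of_forall_locEval_aut_eq_zero` : joint injectivity of the evaluations at all
  places;
* **(E4)** `mem_range_locRestrict_iff` : the decomposition group at finite level;
* **(E6)** `exists_idempotent_locEval` : the primitive idempotent of the place.
-/

set_option autoImplicit false

open scoped TensorProduct
open Polynomial IntermediateField
open Fermat.Agent.CFT.Idele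
open scoped Fermat.Agent.CFT.Idele

namespace Fermat.Agent.CFT.LocalBridge

variable (q : Nat.Primes) (L : IntermediateField ℚ (AlgebraicClosure ℚ))

/-- **(E1)** Evaluation of the semilocal algebra `L ⊗ ℚ_q` at the place of `L` cut out by
`padicPlace q`: `a ⊗ c ↦ padicEmbedding a * c`. -/
noncomputable def locEval : Loc L q →ₐ[ℚ] PadicAlgCl (q : ℕ) :=
  Algebra.TensorProduct.productMap ((padicEmbedding (q : ℕ)).comp L.val)
    (IsScalarTower.toAlgHom ℚ ℚ_[(q : ℕ)] (PadicAlgCl (q : ℕ)))

@[simp] theorem locEval_tmul (a : L) (c : ℚ_[(q : ℕ)]) :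
    locEval q L (a ⊗ₜ[ℚ] c) =
      padicEmbedding (q : ℕ) (a : AlgebraicClosure ℚ) *
        algebraMap ℚ_[(q : ℕ)] (PadicAlgCl (q : ℕ)) c := by
  rw [locEval, Algebra.TensorProduct.productMap_apply_tmul]
  rfl

theorem locEval_inclL (a : L) :
    locEval q L (inclL L q a) = padicEmbedding (q : ℕ) (a : AlgebraicClosure ℚ) := by
  rw [inclL_apply, locEval_tmul, map_one, mul_one]

theorem locEval_inclQ (c : ℚ_[(q : ℕ)]) :
    locEval q L (inclQ L q c) = algebraMap ℚ_[(q : ℕ)] (PadicAlgCl (q : ℕ)) c := by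
  rw [inclQ_apply, locEval_tmul]
  simp

/-- **(E2)** The image of `locEval` is the local level of `L`. -/
theorem range_locEval :
    Set.range (locEval q L) = (localLevel (q : ℕ) L : Set (PadicAlgCl (q : ℕ))) := by
  apply Set.Subset.antisymm
  · rintro _ ⟨y, rfl⟩
    induction y using TensorProduct.induction_on with
    | zero => rw [map_zero]; exact (localLevel (q : ℕ) L).zero_mem
    | tmul a c =>
      rw [locEval_tmul]
      exact (localLevel (q : ℕ) L).mul_mem (padicEmbedding_mem_localLevel (q : ℕ) a.2)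
        ((localLevel (q : ℕ) L).algebraMap_mem c)
    | add z w hz hw => rw [map_add]; exact (localLevel (q : ℕ) L).add_mem hz hw
  · -- the range is a `ℚ_q`-subalgebra of an algebraic extension, hence a field
    let S : Subalgebra ℚ_[(q : ℕ)] (PadicAlgCl (q : ℕ)) :=
      { (locEval q L).range.toSubsemiring with
        algebraMap_mem' := fun c => ⟨inclQ L q c, locEval_inclQ q L c⟩ }
    have hS : IsField S := Subalgebra.isField_of_algebraic S
    have hle : localLevel (q : ℕ) L ≤ Subalgebra.toIntermediateField' S hS := by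
      rw [localLevel, IntermediateField.adjoin_le_iff]
      rintro _ ⟨a, ha, rfl⟩
      exact ⟨inclL L q ⟨a, ha⟩, locEval_inclL q L ⟨a, ha⟩⟩
    intro x hx
    exact hle hx

section Normal

variable [Normal ℚ L]

/-- The map from the prelude's local Galois group to `Gal(L/ℚ)`. -/
noncomputable def locRestrict : LocGal (q : ℕ) →* (L ≃ₐ[ℚ] L) :=
  (AlgEquiv.restrictNormalHom L).comp (localGaloisToGlobal (q : ℕ))

theorem coe_locRestrict_apply (τ : LocGal (q : ℕ)) (a : L) :
    ((locRestrict q L τ a : L) : AlgebraicClosure ℚ) =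
      localGaloisToGlobal (q : ℕ) τ (a : AlgebraicClosure ℚ) :=
  AlgEquiv.restrictNormal_commutes (localGaloisToGlobal (q : ℕ) τ) L a

theorem padicEmbedding_locRestrict (τ : LocGal (q : ℕ)) (a : L) :
    padicEmbedding (q : ℕ) ((locRestrict q L τ a : L) : AlgebraicClosure ℚ) =
      τ (padicEmbedding (q : ℕ) (a : AlgebraicClosure ℚ)) := by
  rw [coe_locRestrict_apply, padicEmbedding_localGaloisToGlobal]

/-- **(E3)** `locEval` intertwines the action of `Gal(L/ℚ)` on `L ⊗ ℚ_q` (through `locRestrict`)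
with the action of the local Galois group on `PadicAlgCl q`. -/
theorem locEval_aut (τ : LocGal (q : ℕ)) (y : Loc L q) :
    locEval q L (Loc.aut L q (locRestrict q L τ) y) = τ (locEval q L y) := by
  induction y using TensorProduct.induction_on with
  | zero => simp
  | tmul a c =>
    rw [Loc.aut_tmul, locEval_tmul, locEval_tmul, map_mul, padicEmbedding_locRestrict,
      AlgEquiv.commutes]
  | add z w hz hw => rw [map_add, map_add, map_add, map_add, hz, hw]

/-- The kernel of `locRestrict` is the fixing subgroup of the local level. -/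
theorem ker_locRestrict : (locRestrict q L).ker = (localLevel (q : ℕ) L).fixingSubgroup := by
  rw [← comap_fixingSubgroup]
  ext τ
  rw [MonoidHom.mem_ker, Subgroup.mem_comap, IntermediateField.mem_fixingSubgroup_iff]
  constructor
  · intro h a ha
    have := congrArg (fun g : L ≃ₐ[ℚ] L => ((g ⟨a, ha⟩ : L) : AlgebraicClosure ℚ)) h
    simp only [coe_locRestrict_apply, AlgEquiv.one_apply] at this
    exact this
  · intro h
    ext a
    rw [coe_locRestrict_apply, AlgEquiv.one_apply]
    exact h a a.2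

end Normal

section Primitive

/-- The ring homomorphism `ℚ_q[X] → L ⊗ ℚ_q`, `X ↦ θ ⊗ 1`. -/
noncomputable def polyToLoc (θ : L) : ℚ_[(q : ℕ)][X] →+* Loc L q :=
  Polynomial.eval₂RingHom (inclQ L q) (inclL L q θ)

theorem polyToLoc_C (θ : L) (c : ℚ_[(q : ℕ)]) : polyToLoc q L θ (C c) = inclQ L q c := by
  simp [polyToLoc]

theorem polyToLoc_X (θ : L) : polyToLoc q L θ X = inclL L q θ := by
  simp [polyToLoc]

theorem inclQ_comp_algebraMap :
    (inclQ L q).comp (algebraMap ℚ ℚ_[(q : ℕ)]) = (inclL L q).comp (algebraMap ℚ L) := by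
  ext r
  simp only [RingHom.comp_apply, inclQ_apply, inclL_apply]
  rw [Algebra.algebraMap_eq_smul_one, Algebra.algebraMap_eq_smul_one, TensorProduct.tmul_smul,
    TensorProduct.smul_tmul']

theorem polyToLoc_map (θ : L) (P : ℚ[X]) :
    polyToLoc q L θ (P.map (algebraMap ℚ ℚ_[(q : ℕ)])) = inclL L q (aeval θ P) := by
  rw [polyToLoc, Polynomial.coe_eval₂RingHom, Polynomial.eval₂_map, inclQ_comp_algebraMap,
    aeval_def, Polynomial.hom_eval₂]

theorem polyToLoc_surjective [FiniteDimensional ℚ L] {θ : L} (hθ : ℚ⟮θ⟯ = ⊤) :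
    Function.Surjective (polyToLoc q L θ) := by
  have hL : ∀ a : L, ∃ h, polyToLoc q L θ h = inclL L q a := by
    intro a
    have hmem : a ∈ (ℚ⟮θ⟯ : IntermediateField ℚ L) := by rw [hθ]; exact IntermediateField.mem_top
    have hθalg : IsAlgebraic ℚ θ := Algebra.IsAlgebraic.isAlgebraic θ
    rw [← IntermediateField.mem_toSubalgebra,
      IntermediateField.adjoin_simple_toSubalgebra_of_isAlgebraic hθalg,
      Algebra.adjoin_singleton_eq_range_aeval] at hmem
    obtain ⟨P, hP⟩ := hmem
    exact ⟨P.map (algebraMap ℚ ℚ_[(q : ℕ)]), by rw [polyToLoc_map]; exact congrArg _ hP⟩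
  intro y
  induction y using TensorProduct.induction_on with
  | zero => exact ⟨0, map_zero _⟩
  | tmul a c =>
    obtain ⟨h, hh⟩ := hL a
    refine ⟨h * C c, ?_⟩
    rw [map_mul, hh, polyToLoc_C, inclL_apply, inclQ_apply, Algebra.TensorProduct.tmul_mul_tmul,
      mul_one, one_mul]
  | add z w hz hw =>
    obtain ⟨h, hh⟩ := hz
    obtain ⟨h', hh'⟩ := hw
    exact ⟨h + h', by rw [map_add, hh, hh']⟩

theorem locEval_comp_polyToLoc (θ : L) :
    (locEval q L : Loc L q →+* PadicAlgCl (q : ℕ)).comp (polyToLoc q L θ) =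
      (aeval (padicEmbedding (q : ℕ) (θ : AlgebraicClosure ℚ)) :
        ℚ_[(q : ℕ)][X] →ₐ[ℚ_[(q : ℕ)]] PadicAlgCl (q : ℕ)) := by
  apply Polynomial.ringHom_ext
  · intro c
    simp only [RingHom.comp_apply, RingHom.coe_coe]
    rw [polyToLoc_C, locEval_inclQ, aeval_C]
  · simp only [RingHom.comp_apply, RingHom.coe_coe]
    rw [polyToLoc_X, locEval_inclL, aeval_X]

theorem locEval_polyToLoc (θ : L) (h : ℚ_[(q : ℕ)][X]) :
    locEval q L (polyToLoc q L θ h) =
      aeval (padicEmbedding (q : ℕ) (θ : AlgebraicClosure ℚ)) h :=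
  congrArg (fun f : ℚ_[(q : ℕ)][X] →+* PadicAlgCl (q : ℕ) => f h) (locEval_comp_polyToLoc q L θ)

theorem aut_polyToLoc (g : L ≃ₐ[ℚ] L) (θ : L) (h : ℚ_[(q : ℕ)][X]) :
    Loc.aut L q g (polyToLoc q L θ h) = polyToLoc q L (g θ) h := by
  have : ((Loc.aut L q g : Loc L q ≃ₐ[ℚ] Loc L q) : Loc L q →+* Loc L q).comp (polyToLoc q L θ) =
      polyToLoc q L (g θ) := by
    apply Polynomial.ringHom_ext
    · intro c
      simp only [RingHom.comp_apply, RingHom.coe_coe]
      rw [polyToLoc_C, polyToLoc_C, Loc.aut_inclQ]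
    · simp only [RingHom.comp_apply, RingHom.coe_coe]
      rw [polyToLoc_X, polyToLoc_X, Loc.aut_inclL]
  exact congrArg (fun f : ℚ_[(q : ℕ)][X] →+* Loc L q => f h) this

theorem locEval_aut_polyToLoc (g : L ≃ₐ[ℚ] L) (θ : L) (h : ℚ_[(q : ℕ)][X]) :
    locEval q L (Loc.aut L q g (polyToLoc q L θ h)) =
      aeval (padicEmbedding (q : ℕ) ((g θ : L) : AlgebraicClosure ℚ)) h := by
  rw [aut_polyToLoc, locEval_polyToLoc]

end Primitive

section Galois

variable [FiniteDimensional ℚ L]

omit [FiniteDimensional ℚ L] in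
/-- Conjugates of a primitive element are roots of the minimal polynomial (base-changed). -/
theorem aeval_padicEmbedding_conj_minpoly (g : L ≃ₐ[ℚ] L) (θ : L) :
    aeval (padicEmbedding (q : ℕ) ((g θ : L) : AlgebraicClosure ℚ))
      ((minpoly ℚ θ).map (algebraMap ℚ ℚ_[(q : ℕ)])) = 0 := by
  have h1 := locEval_aut_polyToLoc q L g θ ((minpoly ℚ θ).map (algebraMap ℚ ℚ_[(q : ℕ)]))
  rw [polyToLoc_map, minpoly.aeval, map_zero, map_zero, map_zero] at h1
  exact h1.symm

theorem algEquiv_eq_of_apply_primitive {θ : L} (hθ : ℚ⟮θ⟯ = ⊤) {g g' : L ≃ₐ[ℚ] L}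
    (h : g θ = g' θ) : g = g' := by
  have hθalg : IsAlgebraic ℚ θ := Algebra.IsAlgebraic.isAlgebraic θ
  have hadj : Algebra.adjoin ℚ {θ} = ⊤ := by
    rw [← IntermediateField.adjoin_simple_toSubalgebra_of_isAlgebraic hθalg, hθ,
      IntermediateField.top_toSubalgebra]
  have := AlgHom.ext_of_adjoin_eq_top hadj (φ₁ := (g : L →ₐ[ℚ] L)) (φ₂ := (g' : L →ₐ[ℚ] L))
    (fun x hx => by rw [Set.mem_singleton_iff.mp hx]; exact h)
  apply AlgEquiv.ext
  intro x
  exact congrArg (fun f : L →ₐ[ℚ] L => f x) this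

variable [Normal ℚ L]

theorem natDegree_minpoly_primitive {θ : L} (hθ : ℚ⟮θ⟯ = ⊤) :
    (minpoly ℚ θ).natDegree = Nat.card (L ≃ₐ[ℚ] L) := by
  have : IsGalois ℚ L := ⟨⟩
  rw [IsGalois.card_aut_eq_finrank, ← IntermediateField.finrank_top', ← hθ,
    IntermediateField.adjoin.finrank (Algebra.IsIntegral.isIntegral θ)]

/-- **(E5)** The evaluations at all the places of `L` over `q` are jointly injective on
`L ⊗ ℚ_q`. -/
theorem eq_zero_of_forall_locEval_aut_eq_zero (y : Loc L q)
    (hy : ∀ g : L ≃ₐ[ℚ] L, locEval q L (Loc.aut L q g y) = 0) : y = 0 := by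
  classical
  obtain ⟨θ, hθ⟩ := Field.exists_primitive_element ℚ L
  obtain ⟨h, rfl⟩ := polyToLoc_surjective q L hθ y
  set m := (minpoly ℚ θ).map (algebraMap ℚ ℚ_[(q : ℕ)]) with hm
  have hθint : IsIntegral ℚ θ := Algebra.IsIntegral.isIntegral θ
  have hmmon : m.Monic := (minpoly.monic hθint).map _
  have hm0 : polyToLoc q L θ m = 0 := by rw [hm, polyToLoc_map, minpoly.aeval, map_zero]
  set r := h %ₘ m with hr
  have hdec : r + m * (h /ₘ m) = h := modByMonic_add_div h m
  have hroot : ∀ g : L ≃ₐ[ℚ] L,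
      aeval (padicEmbedding (q : ℕ) ((g θ : L) : AlgebraicClosure ℚ)) r = 0 := by
    intro g
    have h1 := hy g
    rw [locEval_aut_polyToLoc, ← hdec, map_add, map_mul,
      aeval_padicEmbedding_conj_minpoly q L g θ, zero_mul, add_zero] at h1
    exact h1
  have hinj : Function.Injective
      (fun g : L ≃ₐ[ℚ] L => padicEmbedding (q : ℕ) ((g θ : L) : AlgebraicClosure ℚ)) := by
    intro g g' hgg
    apply algEquiv_eq_of_apply_primitive L hθ
    exact Subtype.ext (padicEmbedding_injective (q : ℕ) hgg)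
  have hr0 : r = 0 := by
    have hmap : r.map (algebraMap ℚ_[(q : ℕ)] (PadicAlgCl (q : ℕ))) = 0 := by
      refine Polynomial.eq_zero_of_natDegree_lt_card_of_eval_eq_zero _ hinj (fun g => ?_) ?_
      · rw [Polynomial.eval_map_algebraMap]; exact hroot g
      · rw [Polynomial.natDegree_map, ← Nat.card_eq_fintype_card,
          ← natDegree_minpoly_primitive L hθ]
        have hne1 : m ≠ 1 := by
          intro h1
          have := congrArg natDegree h1
          rw [hm, Polynomial.natDegree_map, natDegree_one] at this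
          exact (minpoly.natDegree_pos hθint).ne' this
        have := natDegree_modByMonic_lt h hmmon hne1
        rwa [hm, Polynomial.natDegree_map] at this
    exact (Polynomial.map_eq_zero_iff (algebraMap ℚ_[(q : ℕ)] (PadicAlgCl (q : ℕ))).injective).mp hmap
  rw [← hdec, hr0, zero_add, map_mul, hm0, zero_mul]

/-- **(E4)** The decomposition group at finite level: an automorphism of `L` preserves the kernel
of `locEval` iff it is induced by an element of the local Galois group. -/
theorem mem_range_locRestrict_iff (g : L ≃ₐ[ℚ] L) :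
    g ∈ (locRestrict q L).range ↔
      ∀ y : Loc L q, locEval q L y = 0 → locEval q L (Loc.aut L q g y) = 0 := by
  constructor
  · rintro ⟨τ, rfl⟩ y hy
    rw [locEval_aut, hy, map_zero]
  · intro hg
    obtain ⟨θ, hθ⟩ := Field.exists_primitive_element ℚ L
    set a := padicEmbedding (q : ℕ) (θ : AlgebraicClosure ℚ) with ha
    set a' := padicEmbedding (q : ℕ) ((g θ : L) : AlgebraicClosure ℚ) with ha'
    have hai : IsIntegral ℚ_[(q : ℕ)] a := (Algebra.IsAlgebraic.isAlgebraic a).isIntegral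
    have h1 : aeval a' (minpoly ℚ_[(q : ℕ)] a) = 0 := by
      have := hg (polyToLoc q L θ (minpoly ℚ_[(q : ℕ)] a))
        (by rw [locEval_polyToLoc, minpoly.aeval])
      rwa [locEval_aut_polyToLoc] at this
    have hconj : IsConjRoot ℚ_[(q : ℕ)] a a' := by
      rw [IsConjRoot]
      exact minpoly.eq_of_irreducible_of_monic (minpoly.irreducible hai) h1 (minpoly.monic hai)
    obtain ⟨τ, hτ⟩ := isConjRoot_iff_exists_algEquiv.mp hconj.symm
    refine ⟨τ, ?_⟩
    apply algEquiv_eq_of_apply_primitive L hθ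
    apply Subtype.ext
    apply padicEmbedding_injective (q : ℕ)
    rw [coe_locRestrict_apply, padicEmbedding_localGaloisToGlobal]
    exact hτ

/-- **(E6)** The primitive idempotent of `L ⊗ ℚ_q` belonging to the place cut out by
`padicPlace q`. -/
theorem exists_idempotent_locEval :
    ∃ e : Loc L q, e * e = e ∧ locEval q L e = 1 ∧
      ∀ r : Loc L q, locEval q L r = 0 → r * e = 0 := by
  obtain ⟨θ, hθ⟩ := Field.exists_primitive_element ℚ L
  set a := padicEmbedding (q : ℕ) (θ : AlgebraicClosure ℚ) with ha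
  have hai : IsIntegral ℚ_[(q : ℕ)] a := (Algebra.IsAlgebraic.isAlgebraic a).isIntegral
  have hθint : IsIntegral ℚ θ := Algebra.IsIntegral.isIntegral θ
  set m := (minpoly ℚ θ).map (algebraMap ℚ ℚ_[(q : ℕ)]) with hm
  set m₁ := minpoly ℚ_[(q : ℕ)] a with hm₁
  have hm0 : polyToLoc q L θ m = 0 := by rw [hm, polyToLoc_map, minpoly.aeval, map_zero]
  have hma : aeval a m = 0 := by
    have := aeval_padicEmbedding_conj_minpoly q L 1 θ
    rwa [AlgEquiv.one_apply] at this
  obtain ⟨m₂, hm₂⟩ : m₁ ∣ m := minpoly.dvd _ _ hma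
  have hsep : m.Separable :=
    Polynomial.Separable.map (Algebra.IsSeparable.isSeparable ℚ θ)
  have hcop : IsCoprime m₁ m₂ := by
    rw [hm₂] at hsep
    exact hsep.isCoprime
  obtain ⟨u, v, huv⟩ := hcop
  have hkey : ∀ s : ℚ_[(q : ℕ)][X], polyToLoc q L θ (s * m) = 0 := fun s => by
    rw [map_mul, hm0, mul_zero]
  refine ⟨polyToLoc q L θ (v * m₂), ?_, ?_, ?_⟩
  · rw [← map_mul]
    have : v * m₂ * (v * m₂) = v * m₂ - (u * v * m₂) * m₁ := by
      have h1 : v * m₂ = 1 - u * m₁ := by rw [← huv]; ring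
      nth_rewrite 2 [h1]
      ring
    rw [this, map_sub]
    have h2 : (u * v * m₂) * m₁ = (u * v) * m := by rw [hm₂]; ring
    rw [h2, hkey, sub_zero]
  · rw [locEval_polyToLoc]
    have h1 : v * m₂ = 1 - u * m₁ := by rw [← huv]; ring
    rw [h1, map_sub, map_one, map_mul, hm₁, minpoly.aeval, mul_zero, sub_zero]
  · intro r hr
    obtain ⟨h, rfl⟩ := polyToLoc_surjective q L hθ r
    rw [locEval_polyToLoc] at hr
    obtain ⟨s, hs⟩ : m₁ ∣ h := minpoly.dvd _ _ hr
    rw [← map_mul]
    have : h * (v * m₂) = (s * v) * m := by rw [hs, hm₂]; ring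
    rw [this, hkey]

end Galois

end Fermat.Agent.CFT.LocalBridge
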