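import Fermat.Agent.CFT.LocalBridge.Tensor

/-!
# PROJECT C, slice D1-h4 (part B1): the primitive idempotents of `L ⊗ ℚ_q`, indexed by cosets of the
decomposition group

`L ⊆ ℚ̄` finite Galois over `ℚ`, `Γ = Gal(L/ℚ)`, `D = decGroup q L = range (locRestrict q L) ≤ Γ` the
decomposition group of the place of `L` cut out by `padicPlace q`.

* `placeIdem q L` : the idempotent `e₀` of `Loc L q` with `locEval e₀ = 1` killing `ker locEval`
  (unique: `eq_placeIdem_of`);
* `aut_placeIdem_eq_iff` : `g e₀ = e₀ ↔ g ∈ D`;
* `placeIdem_mul_aut_of_notMem` : `e₀ * g e₀ = 0` for `g ∉ D`;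
* `placeIdemAt q L : Γ ⧸ D → Loc L q`, `gD ↦ g e₀`: a complete family of orthogonal idempotents
  permuted by `Γ` (`aut_placeIdemAt`, `placeIdemAt_mul_self`, `placeIdemAt_mul_of_ne`,
  `sum_placeIdemAt`);
* `locEval_injOn_block`, `exists_block_locEval_eq` : `locEval` identifies `e₀ • Loc L q` with
  `localLevel q L`.
No Dedekind domains, no maximal spectra: everything from `Tensor.lean` (E4)-(E6).
-/

set_option autoImplicit false

open scoped TensorProduct
open IntermediateField
open Fermat.Agent.CFT.Idele

namespace Fermat.Agent.CFT.LocalBridge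

variable (q : Nat.Primes) (L : IntermediateField ℚ (AlgebraicClosure ℚ))
  [FiniteDimensional ℚ L] [Normal ℚ L]

/-- The decomposition group at the finite level `L`. -/
noncomputable abbrev decGroup : Subgroup (L ≃ₐ[ℚ] L) := (locRestrict q L).range

/-- The primitive idempotent of `L ⊗ ℚ_q` belonging to the place cut out by `padicPlace q`. -/
noncomputable def placeIdem : Loc L q := Classical.choose (exists_idempotent_locEval q L)

theorem placeIdem_mul_self : placeIdem q L * placeIdem q L = placeIdem q L :=
  (Classical.choose_spec (exists_idempotent_locEval q L)).1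

theorem locEval_placeIdem : locEval q L (placeIdem q L) = 1 :=
  (Classical.choose_spec (exists_idempotent_locEval q L)).2.1

theorem mul_placeIdem_of_locEval_eq_zero {r : Loc L q} (hr : locEval q L r = 0) :
    r * placeIdem q L = 0 :=
  (Classical.choose_spec (exists_idempotent_locEval q L)).2.2 r hr

/-- Uniqueness of the idempotent of the place. -/
theorem eq_placeIdem_of {e : Loc L q} (h1 : locEval q L e = 1)
    (h0 : ∀ r : Loc L q, locEval q L r = 0 → r * e = 0) : e = placeIdem q L := by
  have ha : (1 - placeIdem q L) * e = 0 :=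
    h0 _ (by rw [map_sub, map_one, locEval_placeIdem, sub_self])
  have hb : (1 - e) * placeIdem q L = 0 :=
    mul_placeIdem_of_locEval_eq_zero q L (by rw [map_sub, map_one, h1, sub_self])
  have ha' : e = placeIdem q L * e := by
    have : (1 - placeIdem q L) * e = e - placeIdem q L * e := by ring
    rw [this, sub_eq_zero] at ha
    exact ha
  have hb' : placeIdem q L = e * placeIdem q L := by
    have : (1 - e) * placeIdem q L = placeIdem q L - e * placeIdem q L := by ring
    rw [this, sub_eq_zero] at hb
    exact hb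
  rw [ha', mul_comm]
  exact hb'.symm

/-- The decomposition group fixes the idempotent of the place. -/
theorem aut_placeIdem_of_mem {d : L ≃ₐ[ℚ] L} (hd : d ∈ decGroup q L) :
    Loc.aut L q d (placeIdem q L) = placeIdem q L := by
  apply eq_placeIdem_of
  · obtain ⟨τ, rfl⟩ := hd
    rw [locEval_aut, locEval_placeIdem, map_one]
  · intro r hr
    have hd' : d⁻¹ ∈ decGroup q L := (decGroup q L).inv_mem hd
    have h1 : locEval q L (Loc.aut L q d⁻¹ r) = 0 :=
      (mem_range_locRestrict_iff q L d⁻¹).1 hd' r hr
    have h2 := mul_placeIdem_of_locEval_eq_zero q L h1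
    have h3 := congrArg (Loc.aut L q d) h2
    rw [map_mul, map_zero, ← Loc.aut_mul_apply, mul_inv_cancel, Loc.aut_one] at h3
    exact h3

/-- Only the decomposition group fixes the idempotent of the place. -/
theorem mem_decGroup_of_aut_placeIdem {g : L ≃ₐ[ℚ] L}
    (h : Loc.aut L q g (placeIdem q L) = placeIdem q L) : g ∈ decGroup q L := by
  rw [mem_range_locRestrict_iff]
  intro y hy
  have h1 := congrArg (Loc.aut L q g) (mul_placeIdem_of_locEval_eq_zero q L hy)
  rw [map_mul, map_zero, h] at h1
  have h2 := congrArg (locEval q L) h1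
  rwa [map_mul, locEval_placeIdem, mul_one, map_zero] at h2

theorem aut_placeIdem_eq_iff (g : L ≃ₐ[ℚ] L) :
    Loc.aut L q g (placeIdem q L) = placeIdem q L ↔ g ∈ decGroup q L :=
  ⟨mem_decGroup_of_aut_placeIdem q L, aut_placeIdem_of_mem q L⟩

/-- Conjugates of the idempotent of the place by elements outside the decomposition group are
orthogonal to it. -/
theorem placeIdem_mul_aut_of_notMem {g : L ≃ₐ[ℚ] L} (hg : g ∉ decGroup q L) :
    placeIdem q L * Loc.aut L q g (placeIdem q L) = 0 := by
  set e := placeIdem q L with he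
  set e' := Loc.aut L q g e with he'
  have hidem : e' * e' = e' := by
    rw [he', ← map_mul, placeIdem_mul_self]
  -- `locEval e'` is an idempotent of a field
  have hc : locEval q L e' = 0 ∨ locEval q L e' = 1 := by
    have h1 : locEval q L e' * locEval q L e' = locEval q L e' := by rw [← map_mul, hidem]
    have h2 : locEval q L e' * (locEval q L e' - 1) = 0 := by rw [mul_sub, h1, mul_one, sub_self]
    rcases mul_eq_zero.1 h2 with h | h
    · exact Or.inl h
    · exact Or.inr (sub_eq_zero.1 h)
  rcases hc with hc | hc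
  · rw [mul_comm]
    exact mul_placeIdem_of_locEval_eq_zero q L hc
  · exfalso
    apply hg
    apply mem_decGroup_of_aut_placeIdem
    -- `e = e * e'`
    have h1 : e = e * e' := by
      have h := mul_placeIdem_of_locEval_eq_zero q L (r := 1 - e')
        (by rw [map_sub, map_one, hc, sub_self])
      have : (1 - e') * e = e - e * e' := by ring
      rw [← he, this, sub_eq_zero] at h
      exact h
    -- the evaluation at the conjugate place
    have hker : ∀ r : Loc L q, locEval q L (Loc.aut L q g⁻¹ r) = 0 → r * e' = 0 := by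
      intro r hr
      have h2 := congrArg (Loc.aut L q g) (mul_placeIdem_of_locEval_eq_zero q L hr)
      rw [map_mul, map_zero, ← Loc.aut_mul_apply, mul_inv_cancel, Loc.aut_one] at h2
      exact h2
    have hidem0 : Loc.aut L q g⁻¹ e * Loc.aut L q g⁻¹ e = Loc.aut L q g⁻¹ e := by
      rw [← map_mul, he, placeIdem_mul_self]
    have hc' : locEval q L (Loc.aut L q g⁻¹ e) = 0 ∨ locEval q L (Loc.aut L q g⁻¹ e) = 1 := by
      have h1 : locEval q L (Loc.aut L q g⁻¹ e) * locEval q L (Loc.aut L q g⁻¹ e) =
          locEval q L (Loc.aut L q g⁻¹ e) := by rw [← map_mul, hidem0]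
      have h2 : locEval q L (Loc.aut L q g⁻¹ e) * (locEval q L (Loc.aut L q g⁻¹ e) - 1) = 0 := by
        rw [mul_sub, h1, mul_one, sub_self]
      rcases mul_eq_zero.1 h2 with h | h
      · exact Or.inl h
      · exact Or.inr (sub_eq_zero.1 h)
    rcases hc' with hc' | hc'
    · -- then `e * e' = 0`, so `e = 0`, contradiction
      have h2 := hker e hc'
      rw [← h1] at h2
      have h3 := locEval_placeIdem q L
      rw [← he, h2, map_zero] at h3
      exact absurd h3 zero_ne_one
    · -- then `e' = e * e' = e`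
      have h2 := hker (1 - e) (by rw [map_sub, map_one, map_sub, map_one, hc', sub_self])
      have : (1 - e) * e' = e' - e * e' := by ring
      rw [this, sub_eq_zero, ← h1] at h2
      exact h2

/-- The idempotents of all the places of `L` over `q`, indexed by the cosets of the decomposition
group: `gD ↦ g e₀`. -/
noncomputable def placeIdemAt : (L ≃ₐ[ℚ] L) ⧸ decGroup q L → Loc L q :=
  Quotient.lift (fun g : L ≃ₐ[ℚ] L => Loc.aut L q g (placeIdem q L)) (by
    intro g h hgh
    have h1 : g⁻¹ * h ∈ decGroup q L := QuotientGroup.leftRel_apply.1 hgh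
    have h2 : h = g * (g⁻¹ * h) := by group
    change Loc.aut L q g (placeIdem q L) = Loc.aut L q h (placeIdem q L)
    rw [h2, Loc.aut_mul_apply, aut_placeIdem_of_mem q L h1])

@[simp] theorem placeIdemAt_mk (g : L ≃ₐ[ℚ] L) :
    placeIdemAt q L (g : (L ≃ₐ[ℚ] L) ⧸ decGroup q L) = Loc.aut L q g (placeIdem q L) := rfl

/-- The Galois group permutes the idempotents of the places. -/
theorem aut_placeIdemAt (g : L ≃ₐ[ℚ] L) (x : (L ≃ₐ[ℚ] L) ⧸ decGroup q L) :
    Loc.aut L q g (placeIdemAt q L x) = placeIdemAt q L (g • x) := by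
  induction x using QuotientGroup.induction_on with
  | H h =>
    change _ = placeIdemAt q L ((g * h : L ≃ₐ[ℚ] L) : (L ≃ₐ[ℚ] L) ⧸ decGroup q L)
    rw [placeIdemAt_mk, placeIdemAt_mk, Loc.aut_mul_apply]

theorem placeIdemAt_mul_self (x : (L ≃ₐ[ℚ] L) ⧸ decGroup q L) :
    placeIdemAt q L x * placeIdemAt q L x = placeIdemAt q L x := by
  induction x using QuotientGroup.induction_on with
  | H h => rw [placeIdemAt_mk, ← map_mul, placeIdem_mul_self]

theorem placeIdemAt_mul_of_ne {x y : (L ≃ₐ[ℚ] L) ⧸ decGroup q L} (hxy : x ≠ y) :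
    placeIdemAt q L x * placeIdemAt q L y = 0 := by
  induction x using QuotientGroup.induction_on with
  | H g =>
  induction y using QuotientGroup.induction_on with
  | H h =>
    have hn : g⁻¹ * h ∉ decGroup q L := fun hm => hxy (QuotientGroup.eq.2 hm)
    have h1 := congrArg (Loc.aut L q g) (placeIdem_mul_aut_of_notMem q L hn)
    rw [map_mul, map_zero, ← Loc.aut_mul_apply, mul_inv_cancel_left] at h1
    exact h1

theorem locEval_placeIdemAt_of_ne {x : (L ≃ₐ[ℚ] L) ⧸ decGroup q L}
    (hx : x ≠ ((1 : L ≃ₐ[ℚ] L) : (L ≃ₐ[ℚ] L) ⧸ decGroup q L)) :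
    locEval q L (placeIdemAt q L x) = 0 := by
  have h1 := placeIdemAt_mul_of_ne q L hx
  have h2 := congrArg (locEval q L) h1
  rw [map_mul, map_zero, placeIdemAt_mk, Loc.aut_one] at h2
  change locEval q L (placeIdemAt q L x) * locEval q L (placeIdem q L) = 0 at h2
  rwa [locEval_placeIdem, mul_one] at h2

theorem locEval_placeIdemAt_one :
    locEval q L (placeIdemAt q L ((1 : L ≃ₐ[ℚ] L) : (L ≃ₐ[ℚ] L) ⧸ decGroup q L)) = 1 := by
  rw [placeIdemAt_mk, Loc.aut_one]
  exact locEval_placeIdem q L

/-- The idempotents of the places sum to `1`. -/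
theorem sum_placeIdemAt [Fintype ((L ≃ₐ[ℚ] L) ⧸ decGroup q L)] :
    ∑ x, placeIdemAt q L x = 1 := by
  classical
  set s := ∑ x, placeIdemAt q L x with hs
  have hinv : ∀ g : L ≃ₐ[ℚ] L, Loc.aut L q g s = s := by
    intro g
    rw [hs, map_sum]
    simp only [aut_placeIdemAt]
    exact Fintype.sum_equiv (MulAction.toPerm g) _ _ fun x => rfl
  have hev : locEval q L s = 1 := by
    rw [hs, map_sum, Finset.sum_eq_single ((1 : L ≃ₐ[ℚ] L) : (L ≃ₐ[ℚ] L) ⧸ decGroup q L)]
    · exact locEval_placeIdemAt_one q L
    · intro x _ hx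
      exact locEval_placeIdemAt_of_ne q L hx
    · intro h
      exact absurd (Finset.mem_univ _) h
  have h0 : 1 - s = 0 := by
    apply eq_zero_of_forall_locEval_aut_eq_zero q L
    intro g
    rw [map_sub, map_one, hinv g, map_sub, map_one, hev, sub_self]
  exact (sub_eq_zero.1 h0).symm

/-- `locEval` is injective on the block `e₀ • (L ⊗ ℚ_q)`. -/
theorem locEval_injOn_block {r : Loc L q} (hr : r * placeIdem q L = r)
    (h0 : locEval q L r = 0) : r = 0 := by
  rw [← hr]
  exact mul_placeIdem_of_locEval_eq_zero q L h0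

/-- `locEval` maps the block `e₀ • (L ⊗ ℚ_q)` onto `localLevel q L`. -/
theorem exists_block_locEval_eq {y : PadicAlgCl (q : ℕ)} (hy : y ∈ localLevel (q : ℕ) L) :
    ∃ r : Loc L q, r * placeIdem q L = r ∧ locEval q L r = y := by
  have : y ∈ Set.range (locEval q L) := by
    rw [range_locEval]
    exact hy
  obtain ⟨r, rfl⟩ := this
  refine ⟨r * placeIdem q L, ?_, ?_⟩
  · rw [mul_assoc, placeIdem_mul_self]
  · rw [map_mul, locEval_placeIdem, mul_one]

end Fermat.Agent.CFT.LocalBridge
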