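import Fermat.Agent.CFT.LocalBridge.Krasner

/-!
# PROJECT C, slice D3-local (part 2): the image of the local Galois group is the decomposition group

For the prelude's `localGaloisToGlobal q : Gal(PadicAlgCl q/ℚ_[q]) →* Gal(ℚ̄/ℚ)` and
`padicPlace q : ValuationSubring ℚ̄` we prove

* `minpoly_padicEmbedding_eq` : if `σ` stabilises `padicPlace q` then `emb y` and `emb (σ y)` are
  conjugate over `ℚ_[q]` (weak approximation: a rational polynomial small at one `ℚ_[q]`-factor
  and close to `1` at another would contradict `σ • A = A`);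
* `exists_apply_padicEmbedding_eq`, `exists_localGaloisToGlobal_eq` (compactness of the local
  Galois group);
* `range_localGaloisToGlobal` **(K2)** :
  `(localGaloisToGlobal q).range = (padicPlace q).decompositionSubgroup ℚ`.
-/

set_option autoImplicit false

open Polynomial IntermediateField
open scoped Pointwise

namespace Fermat.Agent.CFT.LocalBridge

variable (q : ℕ) [Fact q.Prime]

/-- Crude bound for the value of a polynomial with small coefficients. -/
theorem norm_aeval_le_of_coeff_le {D : ℚ_[q][X]} {n : ℕ} (hn : D.natDegree ≤ n) {ε : ℝ}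
    (hε : ∀ i, ‖D.coeff i‖ ≤ ε) (a : PadicAlgCl q) :
    ‖Polynomial.aeval a D‖ ≤ ε * ∑ i ∈ Finset.range (n + 1), ‖a‖ ^ i := by
  rw [Polynomial.aeval_eq_sum_range' (Nat.lt_succ_of_le hn), Finset.mul_sum]
  refine (norm_sum_le _ _).trans (Finset.sum_le_sum fun i _ => ?_)
  rw [norm_smul, norm_pow]
  exact mul_le_mul_of_nonneg_right (hε i) (pow_nonneg (norm_nonneg _) _)

theorem padicEmbedding_aeval (y : AlgebraicClosure ℚ) (P : ℚ[X]) :
    padicEmbedding q (Polynomial.aeval y P) =
      Polynomial.aeval (padicEmbedding q y) (P.map (algebraMap ℚ ℚ_[q])) := by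
  rw [Polynomial.aeval_map_algebraMap, Polynomial.aeval_algHom_apply]

theorem mem_padicPlace_of_smul_eq {σ : GlobGal} (hσ : σ • padicPlace q = padicPlace q)
    {x : AlgebraicClosure ℚ} (hx : σ x ∈ padicPlace q) : x ∈ padicPlace q := by
  have h1 : σ x ∈ σ • padicPlace q := by rw [hσ]; exact hx
  rw [ValuationSubring.mem_pointwise_smul_iff_inv_smul_mem] at h1
  simpa [AlgEquiv.smul_def] using h1

/-- **(K2, pointwise core)** If `σ` stabilises `padicPlace q`, then `emb y` and `emb (σ y)` have
the same minimal polynomial over `ℚ_[q]`. -/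
theorem minpoly_padicEmbedding_eq {σ : GlobGal} (hσ : σ • padicPlace q = padicPlace q)
    (y : AlgebraicClosure ℚ) :
    minpoly ℚ_[q] (padicEmbedding q y) = minpoly ℚ_[q] (padicEmbedding q (σ y)) := by
  classical
  set a := padicEmbedding q y with ha
  set a' := padicEmbedding q (σ y) with ha'
  have hai : IsIntegral ℚ_[q] a := (Algebra.IsAlgebraic.isAlgebraic a).isIntegral
  have hai' : IsIntegral ℚ_[q] a' := (Algebra.IsAlgebraic.isAlgebraic a').isIntegral
  set g₁ := minpoly ℚ_[q] a with hg₁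
  set g₂ := minpoly ℚ_[q] a' with hg₂
  by_contra hne
  -- coprimality
  have hirr₁ : Irreducible g₁ := minpoly.irreducible hai
  have hirr₂ : Irreducible g₂ := minpoly.irreducible hai'
  have hcop : IsCoprime g₁ g₂ := by
    rw [hirr₁.coprime_iff_not_dvd]
    intro hdvd
    apply hne
    exact Polynomial.eq_of_monic_of_associated (minpoly.monic hai) (minpoly.monic hai')
      (hirr₁.associated_of_dvd hirr₂ hdvd)
  obtain ⟨u, v, huv⟩ := hcop
  -- a monic polynomial vanishing at `a` and equal to `1` at `a'`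
  set m := (u * g₁).natDegree + 1 with hm
  set P₁ : ℚ_[q][X] := u * g₁ + X ^ m * (g₁ * g₂) with hP₁
  have hg12 : (g₁ * g₂).Monic := (minpoly.monic hai).mul (minpoly.monic hai')
  have hXm : (X ^ m * (g₁ * g₂)).Monic := (monic_X_pow m).mul hg12
  have hdeglt : (u * g₁).degree < (X ^ m * (g₁ * g₂)).degree := by
    apply Polynomial.degree_lt_degree
    rw [(monic_X_pow m).natDegree_mul hg12, natDegree_X_pow]
    omega
  have hP₁mon : P₁.Monic := by
    rw [hP₁, add_comm]
    exact hXm.add_of_left hdeglt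
  have hP₁a : Polynomial.aeval a P₁ = 0 := by
    simp [hP₁, hg₁, minpoly.aeval]
  have hP₁a' : Polynomial.aeval a' P₁ = 1 := by
    have h1 : Polynomial.aeval a' (u * g₁) = 1 := by
      have := congrArg (Polynomial.aeval a') huv
      simpa [hg₂, minpoly.aeval] using this
    simp [hP₁, h1, hg₂, minpoly.aeval]
  -- approximation by a rational polynomial
  set n := P₁.natDegree with hn
  set M : ℝ := (∑ i ∈ Finset.range (n + 1), ‖a‖ ^ i) + (∑ i ∈ Finset.range (n + 1), ‖a'‖ ^ i) + 1
    with hM
  have hMa : (∑ i ∈ Finset.range (n + 1), ‖a‖ ^ i) ≤ M := by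
    have : 0 ≤ ∑ i ∈ Finset.range (n + 1), ‖a'‖ ^ i :=
      Finset.sum_nonneg fun i _ => pow_nonneg (norm_nonneg _) _
    linarith
  have hMa' : (∑ i ∈ Finset.range (n + 1), ‖a'‖ ^ i) ≤ M := by
    have : 0 ≤ ∑ i ∈ Finset.range (n + 1), ‖a‖ ^ i :=
      Finset.sum_nonneg fun i _ => pow_nonneg (norm_nonneg _) _
    linarith
  have hMpos : 0 < M := by
    have h1 : 0 ≤ ∑ i ∈ Finset.range (n + 1), ‖a‖ ^ i :=
      Finset.sum_nonneg fun i _ => pow_nonneg (norm_nonneg _) _
    have h2 : 0 ≤ ∑ i ∈ Finset.range (n + 1), ‖a'‖ ^ i :=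
      Finset.sum_nonneg fun i _ => pow_nonneg (norm_nonneg _) _
    linarith
  have hεpos : (1 / (2 * M)) > 0 := by positivity
  obtain ⟨P, Pmon, Pdeg, Pcoeff⟩ :=
    exists_monic_and_natDegree_eq_and_norm_map_algebraMap_coeff_sub_lt
      (denseRange_algebraMap_rat_padic q) hP₁mon hεpos
  set D : ℚ_[q][X] := P.map (algebraMap ℚ ℚ_[q]) - P₁ with hD
  have hDdeg : D.natDegree ≤ n := by
    refine (Polynomial.natDegree_sub_le _ _).trans (max_le ?_ le_rfl)
    rw [Polynomial.natDegree_map, ← Pdeg]
  have hDcoeff : ∀ i, ‖D.coeff i‖ ≤ 1 / (2 * M) := fun i => by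
    rw [hD, Polynomial.coeff_sub]; exact (Pcoeff i).le
  have hbound : ∀ b : PadicAlgCl q, (∑ i ∈ Finset.range (n + 1), ‖b‖ ^ i) ≤ M →
      ‖Polynomial.aeval b D‖ ≤ 1 / 2 := by
    intro b hb
    refine (norm_aeval_le_of_coeff_le q hDdeg hDcoeff b).trans ?_
    calc 1 / (2 * M) * ∑ i ∈ Finset.range (n + 1), ‖b‖ ^ i ≤ 1 / (2 * M) * M :=
          mul_le_mul_of_nonneg_left hb hεpos.le
      _ = 1 / 2 := by field_simp
  -- the algebraic number `z := P(y)`
  set z : AlgebraicClosure ℚ := Polynomial.aeval y P with hz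
  have hz1 : ‖padicEmbedding q z‖ ≤ 1 / 2 := by
    have : padicEmbedding q z = Polynomial.aeval a D := by
      rw [hz, padicEmbedding_aeval, hD, map_sub, hP₁a, sub_zero]
    rw [this]; exact hbound a hMa
  have hσz : σ z = Polynomial.aeval (σ y) P := by
    rw [hz]
    exact (Polynomial.aeval_algHom_apply (σ : AlgebraicClosure ℚ →ₐ[ℚ] AlgebraicClosure ℚ) y P).symm
  have hz2 : ‖padicEmbedding q (σ z) - 1‖ ≤ 1 / 2 := by
    have : padicEmbedding q (σ z) - 1 = Polynomial.aeval a' D := by
      rw [hσz, padicEmbedding_aeval, hD, map_sub, hP₁a']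
    rw [this]; exact hbound a' hMa'
  -- `‖emb (σ z)‖ ≥ 1/2 > 0`, hence `(σ z)⁻¹` ... use the unit ball
  have hw : (1 : ℝ) ≤ ‖padicEmbedding q (σ z)‖ := by
    by_contra hlt
    push Not at hlt
    have h1 : ‖(1 : PadicAlgCl q)‖ ≤ max ‖(1 : PadicAlgCl q) - padicEmbedding q (σ z)‖
        ‖padicEmbedding q (σ z)‖ := by
      have := IsUltrametricDist.norm_add_le_max ((1 : PadicAlgCl q) - padicEmbedding q (σ z))
        (padicEmbedding q (σ z))
      simpa using this
    rw [norm_one, norm_sub_rev] at h1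
    have : max ‖padicEmbedding q (σ z) - 1‖ ‖padicEmbedding q (σ z)‖ < 1 :=
      max_lt (by linarith) hlt
    linarith
  have hσz0 : σ z ≠ 0 := by
    intro h0
    rw [h0, map_zero, norm_zero] at hw
    linarith
  have hz0 : z ≠ 0 := fun h0 => hσz0 (by rw [h0, map_zero])
  have hmem : σ z⁻¹ ∈ padicPlace q := by
    rw [mem_padicPlace_iff, map_inv₀, map_inv₀, nnnorm_inv, ← NNReal.coe_le_coe, NNReal.coe_inv,
      coe_nnnorm, NNReal.coe_one]
    exact inv_le_one_of_one_le₀ hw
  have hmem2 := mem_padicPlace_of_smul_eq q hσ hmem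
  rw [mem_padicPlace_iff, map_inv₀, nnnorm_inv, ← NNReal.coe_le_coe, NNReal.coe_inv,
    coe_nnnorm, NNReal.coe_one] at hmem2
  have hzpos : 0 < ‖padicEmbedding q z‖ := by
    rw [norm_pos_iff]
    exact fun h => hz0 ((map_eq_zero (padicEmbedding q)).mp h)
  have := (inv_le_one₀ hzpos).mp hmem2
  linarith

instance isGalois_padicAlgCl : IsGalois ℚ_[q] (PadicAlgCl q) where
  to_isSeparable := inferInstance
  to_normal := IsAlgClosure.normal ℚ_[q] (PadicAlgCl q)

/-- **(K2, one element)** -/
theorem exists_apply_padicEmbedding_eq {σ : GlobGal} (hσ : σ • padicPlace q = padicPlace q)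
    (y : AlgebraicClosure ℚ) :
    ∃ τ : LocGal q, τ (padicEmbedding q y) = padicEmbedding q (σ y) := by
  have h : IsConjRoot ℚ_[q] (padicEmbedding q y) (padicEmbedding q (σ y)) :=
    minpoly_padicEmbedding_eq q hσ y
  obtain ⟨τ, hτ⟩ := isConjRoot_iff_exists_algEquiv.mp h.symm
  exact ⟨τ, hτ⟩

theorem isClosed_setOf_apply_eq (a b : PadicAlgCl q) : IsClosed {τ : LocGal q | τ a = b} := by
  by_cases hne : ({τ : LocGal q | τ a = b}).Nonempty
  · obtain ⟨τ₀, hτ₀⟩ := hne
    have hopen : IsOpen (MulAction.stabilizer (LocGal q) a : Set (LocGal q)) :=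
      stabilizer_isOpen_of_isIntegral a
    have hcl : IsClosed (MulAction.stabilizer (LocGal q) a : Set (LocGal q)) :=
      Subgroup.isClosed_of_isOpen _ hopen
    have heq : {τ : LocGal q | τ a = b} =
        (fun τ => τ₀⁻¹ * τ) ⁻¹' (MulAction.stabilizer (LocGal q) a : Set (LocGal q)) := by
      ext τ
      simp only [Set.mem_ofPred_eq, Set.mem_preimage, SetLike.mem_coe,
        MulAction.mem_stabilizer_iff, AlgEquiv.smul_def, AlgEquiv.mul_apply]
      rw [Set.mem_ofPred_eq] at hτ₀
      constructor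
      · intro h
        rw [h, ← hτ₀, ← AlgEquiv.mul_apply, inv_mul_cancel, AlgEquiv.one_apply]
      · intro h
        have := congrArg τ₀ h
        rwa [← AlgEquiv.mul_apply, mul_inv_cancel, AlgEquiv.one_apply, hτ₀] at this
    rw [heq]
    exact hcl.preimage (continuous_const_mul _)
  · rw [Set.not_nonempty_iff_eq_empty] at hne
    rw [hne]
    exact isClosed_empty

/-- **(K2)** The image of the local Galois group in `Gal(ℚ̄/ℚ)` contains the decomposition
subgroup of `padicPlace q`. -/
theorem exists_localGaloisToGlobal_eq {σ : GlobGal} (hσ : σ • padicPlace q = padicPlace q) :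
    ∃ τ : LocGal q, localGaloisToGlobal q τ = σ := by
  classical
  let T : AlgebraicClosure ℚ → Set (LocGal q) := fun y =>
    {τ | τ (padicEmbedding q y) = padicEmbedding q (σ y)}
  have hclosed : ∀ y, IsClosed (T y) := fun y => isClosed_setOf_apply_eq q _ _
  have hfin : ∀ u : Finset (AlgebraicClosure ℚ),
      ((Set.univ : Set (LocGal q)) ∩ ⋂ y ∈ u, T y).Nonempty := by
    intro u
    set F : IntermediateField ℚ (AlgebraicClosure ℚ) :=
      IntermediateField.adjoin ℚ (u : Set (AlgebraicClosure ℚ)) with hF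
    have : Finite (u : Set (AlgebraicClosure ℚ)) := (Finset.finite_toSet u).to_subtype
    have hFfin : FiniteDimensional ℚ F := IntermediateField.finiteDimensional_adjoin
      (fun x _ => ((AlgebraicClosure.isAlgebraic ℚ).isAlgebraic x).isIntegral)
    obtain ⟨α, hα⟩ := Field.exists_primitive_element ℚ F
    obtain ⟨τ, hτ⟩ := exists_apply_padicEmbedding_eq q hσ (α : AlgebraicClosure ℚ)
    refine ⟨τ, Set.mem_univ _, ?_⟩
    simp only [Set.mem_iInter]
    intro x hx
    have hxF : x ∈ F := IntermediateField.subset_adjoin ℚ _ (Finset.mem_coe.mpr hx)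
    have hmem : (⟨x, hxF⟩ : F) ∈ (ℚ⟮α⟯ : IntermediateField ℚ F) := by
      rw [hα]; exact IntermediateField.mem_top
    have hαalg : IsAlgebraic ℚ α := Algebra.IsAlgebraic.isAlgebraic α
    rw [← IntermediateField.mem_toSubalgebra,
      IntermediateField.adjoin_simple_toSubalgebra_of_isAlgebraic hαalg,
      Algebra.adjoin_singleton_eq_range_aeval] at hmem
    obtain ⟨P, hP⟩ := hmem
    have hxP : x = Polynomial.aeval (α : AlgebraicClosure ℚ) P := by
      have := congrArg (Subtype.val) hP
      rw [IntermediateField.aeval_coe]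
      exact this.symm
    show τ (padicEmbedding q x) = padicEmbedding q (σ x)
    have h1 : τ (Polynomial.aeval (padicEmbedding q (α : AlgebraicClosure ℚ))
          (P.map (algebraMap ℚ ℚ_[q]))) =
        Polynomial.aeval (τ (padicEmbedding q (α : AlgebraicClosure ℚ)))
          (P.map (algebraMap ℚ ℚ_[q])) :=
      (Polynomial.aeval_algHom_apply τ.toAlgHom _ _).symm
    have h2 : σ (Polynomial.aeval (α : AlgebraicClosure ℚ) P) =
        Polynomial.aeval (σ (α : AlgebraicClosure ℚ)) P :=
      (Polynomial.aeval_algHom_apply σ.toAlgHom _ _).symm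
    rw [hxP, padicEmbedding_aeval, h1, hτ, h2, padicEmbedding_aeval]
  obtain ⟨τ, -, hτ⟩ := isCompact_univ.inter_iInter_nonempty T hclosed hfin
  refine ⟨τ, ?_⟩
  ext y
  apply padicEmbedding_injective q
  rw [padicEmbedding_localGaloisToGlobal]
  exact Set.mem_iInter.mp hτ y

/-- **(K2)** The range of the prelude's local-to-global map is exactly the decomposition subgroup
of `padicPlace q`. -/
theorem range_localGaloisToGlobal :
    (localGaloisToGlobal q).range = (padicPlace q).decompositionSubgroup ℚ := by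
  ext σ
  constructor
  · rintro ⟨τ, rfl⟩
    exact localGaloisToGlobal_mem_decompositionSubgroup q τ
  · intro hσ
    exact exists_localGaloisToGlobal_eq q (MulAction.mem_stabilizer_iff.mp hσ)

end Fermat.Agent.CFT.LocalBridge
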