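import Mathlib
import Fermat.Prelude.Def_GaloisRep_CompletionBridge
import Fermat.Prelude.Def_GroupCohomology_ContinuousH2

/-!
# PROJECT C, slice D3-local (part 1): Krasner bridge for the prelude's local Galois groups

The prelude models the local Galois group at a prime `q` as
`Gal(PadicAlgCl q / ℚ_[q])`, mapped to `Gal(ℚ̄/ℚ)` by `localGaloisToGlobal q` (restriction along
`padicEmbedding q : ℚ̄ →ₐ[ℚ] PadicAlgCl q`), and measures continuity of local cochains through
*global* levels (`groupCohomology.IsLevelConstant₁/₂ (localGaloisToGlobal q)`).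

This file proves, from Mathlib's Krasner lemma:

* `exists_root_mem_adjoin` : general "Krasner + continuity of roots" statement;
* `exists_mem_adjoin_padicEmbedding` (K0): every `x : PadicAlgCl q` lies in `ℚ_[q](emb y)` for
  some `y : ℚ̄`;
* `localGaloisToGlobal_injective` (K1);
* `localLevel q F` (the finite extension `ℚ_[q](emb F)` of `ℚ_[q]` generated by a global level
  `F`), its finite-dimensionality, `mem_fixingSubgroup_localLevel_iff`, and cofinality
  `exists_le_localLevel` (K3);
* `isLevelConstant₁_iff`, `isLevelConstant₂_iff` : the prelude's level-constancy through global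
  levels is the same as right-invariance under the fixing subgroup of a finite extension of
  `ℚ_[q]` inside `PadicAlgCl q`, i.e. continuity for the Krull topology of the local group.
-/

set_option autoImplicit false

open Polynomial IntermediateField

namespace Fermat.Agent.CFT.LocalBridge

/-- General form of "Krasner + continuity of roots": in an algebraically closed algebraic
extension `L` of a complete ultrametric field `K` of characteristic zero, every element lies in
`K(b)` for some root `b` of a monic polynomial with coefficients in a given dense subfield `K₀`. -/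
theorem exists_root_mem_adjoin {K₀ K L : Type*} [Field K₀] [NontriviallyNormedField K]
    [CompleteSpace K] [IsUltrametricDist K] [CharZero K] [NormedField L] [NormedAlgebra K L]
    [Algebra.IsAlgebraic K L] [IsAlgClosed L] [Algebra K₀ K]
    (hd : DenseRange (algebraMap K₀ K)) (x : L) :
    ∃ (g : K₀[X]) (b : L), g.Monic ∧ (g.map (algebraMap K₀ K)).aeval b = 0 ∧ x ∈ K⟮b⟯ := by
  classical
  have hxint : IsIntegral K x := (Algebra.IsAlgebraic.isAlgebraic x).isIntegral
  set f := minpoly K x with hf
  have fmon : f.Monic := minpoly.monic hxint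
  have firr : Irreducible f := minpoly.irreducible hxint
  have fa0 : f.aeval x = 0 := minpoly.aeval K x
  have fnatdeg0 : f.natDegree ≠ 0 := (Irreducible.natDegree_pos firr).ne'
  let S : Finset L := {z ∈ (f.rootSet L).toFinset | z ≠ x}
  let δ : ℝ := if hS : S.Nonempty then Finset.min' (S.image fun z => ‖x - z‖)
      (Finset.image_nonempty.mpr hS) else 1
  have norm_sub_le : ∀ a' : L, IsConjRoot K x a' → x ≠ a' → δ ≤ ‖x - a'‖ := by
    intro a' conj ne
    by_cases hS : S.Nonempty <;> simp only [hS, ↓reduceDIte, δ]
    · apply Finset.min'_le (S.image fun z => ‖x - z‖) (‖x - a'‖)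
      apply Finset.mem_image_of_mem
      simp only [Finset.mem_filter, Set.mem_toFinset, S]
      rw [hf, ← (isConjRoot_iff_mem_minpoly_rootSet hxint)]
      exact ⟨conj, ne.symm⟩
    · simp only [ne_eq, Finset.not_nonempty_iff_eq_empty, Finset.filter_eq_empty_iff,
        Set.mem_toFinset, not_not, S] at hS
      rw [isConjRoot_iff_mem_minpoly_rootSet hxint] at conj
      exact (ne (hS conj).symm).elim
  have δpos : δ > 0 := by
    by_cases hS : S.Nonempty <;> simp only [hS, ↓reduceDIte, δ]
    · simp only [gt_iff_lt, Finset.lt_min'_iff, Finset.mem_image, forall_exists_index, and_imp,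
        forall_apply_eq_imp_iff₂]
      rintro a' ha'
      simp only [Finset.mem_filter, Set.mem_toFinset, S] at ha'
      rw [norm_pos_iff, sub_ne_zero]
      exact ha'.2.symm
    · linarith
  have hε : (δ / (max ‖x‖ 1)) ^ f.natDegree / (f.natDegree + 1) > 0 := by positivity
  obtain ⟨g, gmon, gdeg, gcoeff⟩ :=
    exists_monic_and_natDegree_eq_and_norm_map_algebraMap_coeff_sub_lt hd fmon hε
  have hsplit : ((g.map (algebraMap K₀ K)).map (algebraMap K L)).Splits :=
    IsAlgClosed.splits _
  obtain ⟨b, hb, hab⟩ := exists_aroots_norm_sub_lt_of_norm_coeff_sub_lt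
      hε fa0 fmon (gmon.map _) (gdeg ▸ (g.natDegree_map _)) gcoeff hsplit
  have hab : ‖x - b‖ < δ := by
    rw [← Real.rpow_natCast, ← mul_comm_div, div_self, one_mul,
        ← Real.rpow_mul (div_pos δpos (by positivity)).le, mul_inv_cancel₀] at hab
    · simpa [mul_assoc, div_mul_cancel₀ _ (by positivity : (max ‖x‖ 1) > 0).ne'] using hab
    · simp [fnatdeg0]
    · positivity
  have hb0 : (g.map (algebraMap K₀ K)).aeval b = 0 := by
    rw [Polynomial.mem_aroots] at hb
    exact hb.2
  refine ⟨g, b, gmon, hb0, ?_⟩
  have masp : ((minpoly K x).map (algebraMap K L)).Splits := IsAlgClosed.splits _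
  exact IsKrasner.krasner (minpoly.irreducible hxint).separable masp
    ⟨g.map _, gmon.map _, by simpa [Polynomial.aeval_def] using hb0⟩
    fun a' h1 h2 ↦ lt_of_lt_of_le hab (norm_sub_le a' h1 h2)

variable (q : ℕ) [Fact q.Prime]

theorem denseRange_algebraMap_rat_padic : DenseRange (algebraMap ℚ ℚ_[q]) := by
  have : (algebraMap ℚ ℚ_[q] : ℚ → ℚ_[q]) = Rat.cast := by
    funext x; exact eq_ratCast _ x
  rw [this]
  exact Padic.denseRange_ratCast q

/-- Local abbreviation: the prelude's local Galois group at `q`. -/
abbrev LocGal : Type := PadicAlgCl q ≃ₐ[ℚ_[q]] PadicAlgCl q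

/-- Local abbreviation: the absolute Galois group of `ℚ`. -/
abbrev GlobGal : Type := AlgebraicClosure ℚ ≃ₐ[ℚ] AlgebraicClosure ℚ

theorem algebraMap_rat_padicAlgCl_eq :
    (algebraMap ℚ (PadicAlgCl q)) =
      (algebraMap ℚ_[q] (PadicAlgCl q)).comp (algebraMap ℚ ℚ_[q]) :=
  Subsingleton.elim _ _

theorem padicEmbedding_comp_algebraMap :
    ((padicEmbedding q : AlgebraicClosure ℚ →ₐ[ℚ] PadicAlgCl q) : AlgebraicClosure ℚ →+* _).comp
      (algebraMap ℚ (AlgebraicClosure ℚ)) = algebraMap ℚ (PadicAlgCl q) :=
  Subsingleton.elim _ _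

theorem padicEmbedding_injective : Function.Injective (padicEmbedding q) :=
  (padicEmbedding q).toRingHom.injective

/-- A root in `PadicAlgCl q` of a nonzero rational polynomial is in the image of `ℚ̄`. -/
theorem mem_range_padicEmbedding_of_root {g : ℚ[X]} (hg : g ≠ 0) {b : PadicAlgCl q}
    (hb : (g.map (algebraMap ℚ ℚ_[q])).aeval b = 0) :
    ∃ y : AlgebraicClosure ℚ, padicEmbedding q y = b := by
  have hsplit : (g.map (algebraMap ℚ (AlgebraicClosure ℚ))).Splits := IsAlgClosed.splits _
  have hne : g.map (algebraMap ℚ (AlgebraicClosure ℚ)) ≠ 0 :=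
    (Polynomial.map_ne_zero_iff (algebraMap ℚ (AlgebraicClosure ℚ)).injective).mpr hg
  have hroot : ((g.map (algebraMap ℚ (AlgebraicClosure ℚ))).map
      ((padicEmbedding q : AlgebraicClosure ℚ →ₐ[ℚ] PadicAlgCl q) :
        AlgebraicClosure ℚ →+* PadicAlgCl q)).IsRoot b := by
    rw [Polynomial.map_map, padicEmbedding_comp_algebraMap, algebraMap_rat_padicAlgCl_eq,
      ← Polynomial.map_map, Polynomial.IsRoot.def, Polynomial.eval_map_algebraMap]
    exact hb
  obtain ⟨y, hy⟩ := hsplit.mem_range_of_isRoot hne hroot
  exact ⟨y, hy⟩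

/-- **(K0)** Every element of `PadicAlgCl q` lies in `ℚ_[q](emb y)` for some algebraic number
`y : ℚ̄`. -/
theorem exists_mem_adjoin_padicEmbedding (x : PadicAlgCl q) :
    ∃ y : AlgebraicClosure ℚ, x ∈ IntermediateField.adjoin ℚ_[q] {padicEmbedding q y} := by
  obtain ⟨g, b, gmon, hb, hx⟩ :=
    exists_root_mem_adjoin (K₀ := ℚ) (K := ℚ_[q]) (L := PadicAlgCl q)
      (denseRange_algebraMap_rat_padic q) x
  obtain ⟨y, rfl⟩ := mem_range_padicEmbedding_of_root q gmon.ne_zero hb
  exact ⟨y, hx⟩

/-- An element of the local Galois group fixing `b` fixes `ℚ_[q](b)` pointwise. -/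
theorem apply_eq_of_mem_adjoin_simple (τ : LocGal q) {b x : PadicAlgCl q} (hb : τ b = b)
    (hx : x ∈ IntermediateField.adjoin ℚ_[q] {b}) : τ x = x := by
  have hle : IntermediateField.adjoin ℚ_[q] {b} ≤
      IntermediateField.fixedField (Subgroup.zpowers τ) := by
    rw [IntermediateField.adjoin_le_iff, Set.singleton_subset_iff]
    rintro ⟨g, hg⟩
    obtain ⟨n, rfl⟩ := Subgroup.mem_zpowers_iff.mp hg
    show (τ ^ n) b = b
    have : ∀ m : ℕ, (τ ^ m) b = b := by
      intro m
      induction m with
      | zero => simp
      | succ k ih => rw [pow_succ, AlgEquiv.mul_apply, hb, ih]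
    cases n with
    | ofNat m => simpa using this m
    | negSucc m =>
      rw [zpow_negSucc]
      have h1 := this (m + 1)
      calc ((τ ^ (m + 1))⁻¹) b = ((τ ^ (m + 1))⁻¹) ((τ ^ (m + 1)) b) := by rw [h1]
        _ = b := by
          rw [← AlgEquiv.mul_apply, inv_mul_cancel, AlgEquiv.one_apply]
  exact hle hx ⟨τ, Subgroup.mem_zpowers τ⟩

/-- **(K1)** The prelude's local-to-global map `Gal(ℚ̄_q/ℚ_q) → Gal(ℚ̄/ℚ)` is injective. -/
theorem localGaloisToGlobal_injective : Function.Injective (localGaloisToGlobal q) := by
  rw [injective_iff_map_eq_one]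
  intro τ hτ
  ext x
  obtain ⟨y, hy⟩ := exists_mem_adjoin_padicEmbedding q x
  have hfix : τ (padicEmbedding q y) = padicEmbedding q y := by
    rw [← padicEmbedding_localGaloisToGlobal, hτ, AlgEquiv.one_apply]
  rw [AlgEquiv.one_apply]
  exact apply_eq_of_mem_adjoin_simple q τ hfix hy

/-- The finite extension of `ℚ_[q]` inside `PadicAlgCl q` generated by (the image of) a global
level `F ⊆ ℚ̄`. -/
noncomputable def localLevel (F : IntermediateField ℚ (AlgebraicClosure ℚ)) :
    IntermediateField ℚ_[q] (PadicAlgCl q) :=
  IntermediateField.adjoin ℚ_[q] (padicEmbedding q '' (F : Set (AlgebraicClosure ℚ)))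

theorem padicEmbedding_mem_localLevel {F : IntermediateField ℚ (AlgebraicClosure ℚ)}
    {y : AlgebraicClosure ℚ} (hy : y ∈ F) : padicEmbedding q y ∈ localLevel q F :=
  IntermediateField.subset_adjoin _ _ ⟨y, hy, rfl⟩

theorem localLevel_mono {F F' : IntermediateField ℚ (AlgebraicClosure ℚ)} (h : F ≤ F') :
    localLevel q F ≤ localLevel q F' :=
  IntermediateField.adjoin.mono _ _ _ (Set.image_mono h)

/-- **(K3a)** `τ` fixes the local level of `F` iff its image in `Gal(ℚ̄/ℚ)` fixes `F`. -/
theorem mem_fixingSubgroup_localLevel_iff (F : IntermediateField ℚ (AlgebraicClosure ℚ))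
    (τ : LocGal q) :
    τ ∈ (localLevel q F).fixingSubgroup ↔ localGaloisToGlobal q τ ∈ F.fixingSubgroup := by
  constructor
  · intro h
    rw [IntermediateField.mem_fixingSubgroup_iff] at h ⊢
    intro y hy
    apply padicEmbedding_injective q
    rw [padicEmbedding_localGaloisToGlobal]
    exact h _ (padicEmbedding_mem_localLevel q hy)
  · intro h
    rw [IntermediateField.mem_fixingSubgroup_iff] at h
    have hle : localLevel q F ≤ IntermediateField.fixedField (Subgroup.zpowers τ) := by
      rw [localLevel, IntermediateField.adjoin_le_iff]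
      rintro _ ⟨y, hy, rfl⟩
      have hfix : τ (padicEmbedding q y) = padicEmbedding q y := by
        rw [← padicEmbedding_localGaloisToGlobal, h y hy]
      intro ⟨g, hg⟩
      obtain ⟨n, rfl⟩ := Subgroup.mem_zpowers_iff.mp hg
      show (τ ^ n) (padicEmbedding q y) = padicEmbedding q y
      have hb := hfix
      have : ∀ m : ℕ, (τ ^ m) (padicEmbedding q y) = padicEmbedding q y := by
        intro m
        induction m with
        | zero => simp
        | succ k ih => rw [pow_succ, AlgEquiv.mul_apply, hb, ih]
      cases n with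
      | ofNat m => simpa using this m
      | negSucc m =>
        rw [zpow_negSucc]
        have h1 := this (m + 1)
        calc ((τ ^ (m + 1))⁻¹) (padicEmbedding q y)
            = ((τ ^ (m + 1))⁻¹) ((τ ^ (m + 1)) (padicEmbedding q y)) := by rw [h1]
          _ = padicEmbedding q y := by
            rw [← AlgEquiv.mul_apply, inv_mul_cancel, AlgEquiv.one_apply]
    rw [IntermediateField.mem_fixingSubgroup_iff]
    intro x hx
    exact hle hx ⟨τ, Subgroup.mem_zpowers τ⟩



instance isScalarTower_rat_padic_padicAlgCl : IsScalarTower ℚ ℚ_[q] (PadicAlgCl q) :=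
  IsScalarTower.of_algebraMap_eq' (Subsingleton.elim _ _)

/-- `emb` maps the field generated over `ℚ` by `T` into the field generated over `ℚ_[q]` by
`emb '' T`. -/
theorem image_adjoin_subset (T : Set (AlgebraicClosure ℚ)) :
    padicEmbedding q '' (IntermediateField.adjoin ℚ T : Set (AlgebraicClosure ℚ)) ⊆
      (IntermediateField.adjoin ℚ_[q] (padicEmbedding q '' T) : Set (PadicAlgCl q)) := by
  set E' := IntermediateField.adjoin ℚ_[q] (padicEmbedding q '' T) with hE'
  let E'' : IntermediateField ℚ (AlgebraicClosure ℚ) :=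
    (E'.restrictScalars ℚ).comap (padicEmbedding q)
  have hle : IntermediateField.adjoin ℚ T ≤ E'' := by
    rw [IntermediateField.adjoin_le_iff]
    intro t ht
    show padicEmbedding q t ∈ E'
    exact IntermediateField.subset_adjoin _ _ ⟨t, ht, rfl⟩
  rintro _ ⟨y, hy, rfl⟩
  exact hle hy

theorem localLevel_adjoin (T : Set (AlgebraicClosure ℚ)) :
    localLevel q (IntermediateField.adjoin ℚ T) =
      IntermediateField.adjoin ℚ_[q] (padicEmbedding q '' T) := by
  apply le_antisymm
  · rw [localLevel, IntermediateField.adjoin_le_iff]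
    exact image_adjoin_subset q T
  · exact IntermediateField.adjoin.mono _ _ _
      (Set.image_mono (IntermediateField.subset_adjoin ℚ T))

theorem fg_of_finiteDimensional {K L : Type*} [Field K] [Field L] [Algebra K L]
    (E : IntermediateField K L) [FiniteDimensional K E] : E.FG := by
  apply IntermediateField.fg_of_fg_toSubalgebra
  apply Subalgebra.fg_of_fg_toSubmodule
  exact (Module.Finite.iff_fg (N := E.toSubalgebra.toSubmodule)).mp ‹_›

/-- **(K3b)** The local level of a number field is a finite extension of `ℚ_[q]`. -/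
instance finiteDimensional_localLevel (F : IntermediateField ℚ (AlgebraicClosure ℚ))
    [FiniteDimensional ℚ F] : FiniteDimensional ℚ_[q] (localLevel q F) := by
  obtain ⟨s, hs⟩ := fg_of_finiteDimensional F
  rw [← hs, localLevel_adjoin]
  have : Finite (padicEmbedding q '' (s : Set (AlgebraicClosure ℚ))) :=
    (s.finite_toSet.image _).to_subtype
  exact IntermediateField.finiteDimensional_adjoin
    (fun x _ => (Algebra.IsAlgebraic.isAlgebraic x).isIntegral)

/-- **(K3c)** Cofinality: every finite extension of `ℚ_[q]` inside `PadicAlgCl q` is contained in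
the local level of a number field. -/
theorem exists_le_localLevel (E : IntermediateField ℚ_[q] (PadicAlgCl q))
    [FiniteDimensional ℚ_[q] E] :
    ∃ F : IntermediateField ℚ (AlgebraicClosure ℚ), FiniteDimensional ℚ F ∧
      E ≤ localLevel q F := by
  classical
  obtain ⟨t, ht⟩ := fg_of_finiteDimensional E
  choose y hy using exists_mem_adjoin_padicEmbedding q
  refine ⟨IntermediateField.adjoin ℚ ((t.image y : Finset (AlgebraicClosure ℚ)) : Set _),
    ?_, ?_⟩
  · have : Finite ((t.image y : Finset (AlgebraicClosure ℚ)) : Set (AlgebraicClosure ℚ)) :=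
      (Finset.finite_toSet _).to_subtype
    exact IntermediateField.finiteDimensional_adjoin
      (fun x _ => ((AlgebraicClosure.isAlgebraic ℚ).isAlgebraic x).isIntegral)
  · rw [← ht, IntermediateField.adjoin_le_iff]
    intro x hx
    have h1 : IntermediateField.adjoin ℚ_[q] {padicEmbedding q (y x)} ≤
        localLevel q (IntermediateField.adjoin ℚ
          ((t.image y : Finset (AlgebraicClosure ℚ)) : Set _)) := by
      rw [IntermediateField.adjoin_le_iff, Set.singleton_subset_iff]
      apply padicEmbedding_mem_localLevel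
      apply IntermediateField.subset_adjoin
      exact Finset.mem_coe.mpr (Finset.mem_image_of_mem y hx)
    exact h1 (hy x)

open groupCohomology in
/-- **(K3d)** Level-constancy through *global* levels of a function on the local Galois group is
right-invariance under the fixing subgroup of a finite extension of `ℚ_[q]`. -/
theorem isLevelConstant₁_iff {X : Type*} (f : LocGal q → X) :
    IsLevelConstant₁ (localGaloisToGlobal q) f ↔
      ∃ E : IntermediateField ℚ_[q] (PadicAlgCl q), FiniteDimensional ℚ_[q] E ∧
        ∀ g s : LocGal q, s ∈ E.fixingSubgroup → f (g * s) = f g := by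
  constructor
  · rintro ⟨F, hF, h⟩
    have := hF
    exact ⟨localLevel q F, inferInstance, fun g s hs =>
      h g s ((mem_fixingSubgroup_localLevel_iff q F s).mp hs)⟩
  · rintro ⟨E, hE, h⟩
    have := hE
    obtain ⟨F, hF, hle⟩ := exists_le_localLevel q E
    exact ⟨F, hF, fun g s hs => h g s
      (IntermediateField.fixingSubgroup_antitone hle
        ((mem_fixingSubgroup_localLevel_iff q F s).mpr hs))⟩

open groupCohomology in
theorem isLevelConstant₂_iff {X : Type*} (f : LocGal q × LocGal q → X) :
    IsLevelConstant₂ (localGaloisToGlobal q) f ↔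
      ∃ E : IntermediateField ℚ_[q] (PadicAlgCl q), FiniteDimensional ℚ_[q] E ∧
        ∀ g g' s s' : LocGal q, s ∈ E.fixingSubgroup → s' ∈ E.fixingSubgroup →
          f (g * s, g' * s') = f (g, g') := by
  constructor
  · rintro ⟨F, hF, h⟩
    have := hF
    exact ⟨localLevel q F, inferInstance, fun g g' s s' hs hs' =>
      h g g' s s' ((mem_fixingSubgroup_localLevel_iff q F s).mp hs)
        ((mem_fixingSubgroup_localLevel_iff q F s').mp hs')⟩
  · rintro ⟨E, hE, h⟩
    have := hE
    obtain ⟨F, hF, hle⟩ := exists_le_localLevel q E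
    exact ⟨F, hF, fun g g' s s' hs hs' => h g g' s s'
      (IntermediateField.fixingSubgroup_antitone hle
        ((mem_fixingSubgroup_localLevel_iff q F s).mpr hs))
      (IntermediateField.fixingSubgroup_antitone hle
        ((mem_fixingSubgroup_localLevel_iff q F s').mpr hs'))⟩

end Fermat.Agent.CFT.LocalBridge
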